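import Mathlib
import Fermat.Agent.MUL.Orig.S27.GR.Steps
import Fermat.Agent.MUL.Orig.S27.GR.LiftStatements
import Fermat.Agent.MUL.S27.Zeta.Main

section MergeWrap_S27_GR_RootsRed -- from S27/GR/RootsRed.lean

/-!
# Cluster B / GoodRed, step (L3): roots of a polynomial over a valuation ring and its reduction
(helper7).  Pure algebra.

`A` a valuation subring of an algebraically closed field `K`, `res : A → k` a ring homomorphism
whose kernel is the set of non-units.  For `D ∈ A[X]` with `D̄ := D.map res ≠ 0`:
the multiplicity of `c̄` as a root of `D̄` is the number of roots `r ∈ A` of `D`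
(counted with multiplicity) with `res r = c̄`.
-/

set_option autoImplicit false

namespace Fermat.Agent.S27GR

open Polynomial

noncomputable section

variable {K k : Type*} [Field K] [Field k] (A : ValuationSubring K) (res : A →+* k)

/-- division by `1 - s X` stays in `A[X]`. -/
theorem exists_of_one_sub_mul (D : A[X]) (s : A) (Q : K[X])
    (h : D.map A.subtype = (1 - C (s : K) * X) * Q) : ∃ D' : A[X], D'.map A.subtype = Q := by
  have hcoef : ∀ n, Q.coeff n ∈ Set.range A.subtype := by
    intro n
    induction n with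
    | zero =>
      have h0 := congrArg (fun p => p.coeff 0) h
      simp only [coeff_map, sub_mul, one_mul, coeff_sub, mul_assoc, coeff_C_mul,
        coeff_X_mul_zero, mul_zero, sub_zero] at h0
      exact ⟨D.coeff 0, h0⟩
    | succ n ih =>
      obtain ⟨a, ha⟩ := ih
      have h1 := congrArg (fun p => p.coeff (n + 1)) h
      simp only [coeff_map, sub_mul, one_mul, coeff_sub, mul_assoc, coeff_C_mul,
        coeff_X_mul] at h1
      refine ⟨D.coeff (n + 1) + s * a, ?_⟩
      rw [map_add, map_mul, ha, h1]
      simp
  exact (Polynomial.lifts_iff_coeff_lifts Q).mpr hcoef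

variable {A res}

theorem map_subtype_injective : Function.Injective (Polynomial.map (A.subtype : A →+* K)) :=
  Polynomial.map_injective _ Subtype.val_injective

open Classical in
/-- **(L3)**, multiset form, by induction on the degree. -/
theorem rootMultiplicity_map_res_aux [IsAlgClosed K] (hres : ∀ a : A, res a = 0 ↔ ¬ IsUnit a) :
    ∀ (n : ℕ) (D : A[X]), D.natDegree = n → D.map res ≠ 0 → ∀ cbar : k,
      (D.map res).rootMultiplicity cbar =
        Multiset.card (D.roots.filter fun r => res r = cbar) := by
  intro n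
  induction n with
  | zero =>
    intro D hD hDbar cbar
    obtain ⟨a, rfl⟩ : ∃ a, D = C a := ⟨_, Polynomial.eq_C_of_natDegree_eq_zero hD⟩
    rw [Polynomial.map_C, Polynomial.rootMultiplicity_C, Polynomial.roots_C]
    simp
  | succ n ih =>
    intro D hD hDbar cbar
    have hD0 : D ≠ 0 := by
      rintro rfl
      simp at hD
    have hDK : (D.map A.subtype).degree ≠ 0 := by
      rw [Polynomial.degree_map_eq_of_injective Subtype.val_injective,
        Polynomial.degree_eq_natDegree hD0, hD]
      exact_mod_cast Nat.succ_ne_zero n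
    obtain ⟨ρ, hρ⟩ := IsAlgClosed.exists_root (D.map A.subtype) hDK
    by_cases hρA : ρ ∈ A
    · -- a root in `A`
      have hroot : D.IsRoot ⟨ρ, hρA⟩ := by
        rw [Polynomial.IsRoot.def]
        apply Subtype.val_injective
        have := hρ
        rw [Polynomial.IsRoot.def, Polynomial.eval_map] at this
        have h2 : A.subtype (D.eval ⟨ρ, hρA⟩) = D.eval₂ A.subtype ρ := by
          rw [Polynomial.eval, Polynomial.hom_eval₂, RingHom.comp_id]
          rfl
        show A.subtype (D.eval ⟨ρ, hρA⟩) = A.subtype 0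
        rw [h2, this, map_zero]
      obtain ⟨D', hD'⟩ := Polynomial.dvd_iff_isRoot.mpr hroot
      have hD'0 : D' ≠ 0 := by
        rintro rfl
        rw [mul_zero] at hD'
        exact hD0 hD'
      have hdeg : D'.natDegree = n := by
        have := congrArg Polynomial.natDegree hD'
        rw [Polynomial.natDegree_mul (Polynomial.X_sub_C_ne_zero _) hD'0,
          Polynomial.natDegree_X_sub_C, hD] at this
        omega
      have hmap : D.map res = (X - C (res ⟨ρ, hρA⟩)) * D'.map res := by
        rw [hD', Polynomial.map_mul, Polynomial.map_sub, Polynomial.map_X, Polynomial.map_C]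
      have hD'bar : D'.map res ≠ 0 := by
        intro h0
        rw [hmap, h0, mul_zero] at hDbar
        exact hDbar rfl
      have ih' := ih D' hdeg hD'bar cbar
      have hne : (X - C (res ⟨ρ, hρA⟩)) * D'.map res ≠ 0 := by
        rw [← hmap]
        exact hDbar
      rw [hmap, Polynomial.rootMultiplicity_mul hne, ih', Polynomial.rootMultiplicity_X_sub_C]
      have hroots : D.roots = {(⟨ρ, hρA⟩ : A)} + D'.roots := by
        conv_lhs => rw [hD']
        rw [Polynomial.roots_mul (by rw [← hD']; exact hD0), Polynomial.roots_X_sub_C]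
      rw [hroots, Multiset.filter_add, Multiset.card_add, Multiset.filter_singleton]
      by_cases hc : res ⟨ρ, hρA⟩ = cbar
      · rw [if_pos hc.symm, if_pos hc]
        simp
      · rw [if_neg (fun h => hc h.symm), if_neg hc]
        simp
    · -- a root outside `A`
      have hρ0 : ρ ≠ 0 := by
        rintro rfl
        exact hρA (zero_mem _)
      have hsA : ρ⁻¹ ∈ A := (A.mem_or_inv_mem ρ).resolve_left hρA
      set s : A := ⟨ρ⁻¹, hsA⟩ with hs
      have hsnu : ¬ IsUnit s := by
        intro hu
        obtain ⟨t, ht⟩ := isUnit_iff_exists_inv.mp hu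
        have h1 : ρ⁻¹ * (t : K) = 1 := by
          have := congrArg Subtype.val ht
          simpa using this
        have h2 : (t : K) = ρ := by
          field_simp at h1
          exact h1
        exact hρA (h2 ▸ t.2)
      have hress : res s = 0 := (hres s).mpr hsnu
      obtain ⟨Q, hQ⟩ := Polynomial.dvd_iff_isRoot.mpr hρ
      have hfac : D.map A.subtype = (1 - C ((s : A) : K) * X) * (C (-ρ) * Q) := by
        rw [hQ]
        have : (X - C ρ : K[X]) = (1 - C ((s : A) : K) * X) * C (-ρ) := by
          have h1 : ((s : A) : K) = ρ⁻¹ := rfl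
          rw [h1, sub_mul, one_mul, mul_assoc, mul_comm X (C (-ρ)), ← mul_assoc, ← C_mul,
            mul_neg, inv_mul_cancel₀ hρ0]
          simp only [C_neg, C_1, neg_mul, one_mul, sub_neg_eq_add]
          ring
        rw [this, mul_assoc]
      obtain ⟨D', hD'⟩ := exists_of_one_sub_mul A D s (C (-ρ) * Q) hfac
      set U : A[X] := 1 - C s * X with hU
      have hUmap : U.map A.subtype = 1 - C ((s : A) : K) * X := by
        rw [hU, Polynomial.map_sub, Polynomial.map_one, Polynomial.map_mul, Polynomial.map_C,
          Polynomial.map_X]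
        rfl
      have hDU : D = U * D' := by
        apply map_subtype_injective
        rw [Polynomial.map_mul, hUmap, hD', hfac]
      have hs0 : s ≠ 0 := by
        intro h0
        have : ρ⁻¹ = 0 := congrArg Subtype.val h0
        exact inv_ne_zero hρ0 this
      have hU0 : U ≠ 0 := by
        intro h0
        rw [hDU, h0, zero_mul] at hD0
        exact hD0 rfl
      have hD'0 : D' ≠ 0 := by
        rintro rfl
        rw [mul_zero] at hDU
        exact hD0 hDU
      have hUdeg : U.natDegree = 1 := by
        have h1 : U = C (-s) * X + C 1 := by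
          rw [hU]
          simp only [C_neg, C_1]
          ring
        rw [h1]
        exact Polynomial.natDegree_linear (neg_ne_zero.mpr hs0)
      have hdeg : D'.natDegree = n := by
        have := congrArg Polynomial.natDegree hDU
        rw [Polynomial.natDegree_mul hU0 hD'0, hUdeg, hD] at this
        omega
      have hUbar : U.map res = 1 := by
        rw [hU, Polynomial.map_sub, Polynomial.map_one, Polynomial.map_mul, Polynomial.map_C,
          hress]
        simp
      have hmap : D.map res = D'.map res := by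
        rw [hDU, Polynomial.map_mul, hUbar, one_mul]
      have hUroots : U.roots = 0 := by
        apply Multiset.eq_zero_of_forall_notMem
        intro r hr
        rw [Polynomial.mem_roots hU0, Polynomial.IsRoot.def, hU] at hr
        simp only [eval_sub, eval_one, eval_mul, eval_C, eval_X] at hr
        apply hsnu
        exact isUnit_iff_exists_inv.mpr ⟨r, (sub_eq_zero.mp hr).symm⟩
      have hroots : D.roots = D'.roots := by
        conv_lhs => rw [hDU]
        rw [Polynomial.roots_mul (by rw [← hDU]; exact hD0), hUroots, zero_add]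
      rw [hmap, hroots]
      exact ih D' hdeg (by rw [← hmap]; exact hDbar) cbar

open Classical in
/-- **(L3)**, multiset form: the multiplicity of `c̄` in the reduction is the number of roots in
`A` (with multiplicity) reducing to `c̄`. -/
theorem rootMultiplicity_map_res [IsAlgClosed K] (hres : ∀ a : A, res a = 0 ↔ ¬ IsUnit a)
    (D : A[X]) (hD : D.map res ≠ 0) (cbar : k) :
    (D.map res).rootMultiplicity cbar =
      Multiset.card (D.roots.filter fun r => res r = cbar) :=
  rootMultiplicity_map_res_aux hres _ D rfl hD cbar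

open Classical in
/-- **(L3)**, sum form. -/
theorem rootMultiplicity_map_res_eq_sum [IsAlgClosed K] (hres : ∀ a : A, res a = 0 ↔ ¬ IsUnit a)
    (D : A[X]) (hD : D.map res ≠ 0) (cbar : k) :
    (D.map res).rootMultiplicity cbar =
      ∑ r ∈ D.roots.toFinset.filter (fun r => res r = cbar), D.rootMultiplicity r := by
  rw [rootMultiplicity_map_res hres D hD cbar, ← Multiset.toFinset_sum_count_eq,
    Multiset.toFinset_filter]
  refine Finset.sum_congr rfl fun r hr => ?_
  rw [Finset.mem_filter] at hr
  rw [Multiset.count_filter, if_pos hr.2, Polynomial.count_roots]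

/-- consequence: if no root of `D` in `A` reduces to `c̄`, then `c̄` is not a root of `D̄`. -/
theorem not_isRoot_map_res [IsAlgClosed K] (hres : ∀ a : A, res a = 0 ↔ ¬ IsUnit a)
    (D : A[X]) (hD : D.map res ≠ 0) (cbar : k)
    (h : ∀ r : A, D.IsRoot r → res r ≠ cbar) : ¬ (D.map res).IsRoot cbar := by
  classical
  intro hroot
  have h1 : 0 < (D.map res).rootMultiplicity cbar :=
    (Polynomial.rootMultiplicity_pos hD).mpr hroot
  rw [rootMultiplicity_map_res hres D hD cbar] at h1
  obtain ⟨r, hr⟩ := Multiset.card_pos_iff_exists_mem.mp h1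
  rw [Multiset.mem_filter] at hr
  have hD0 : D ≠ 0 := by
    rintro rfl
    simp at hD
  exact h r ((Polynomial.mem_roots hD0).mp hr.1) hr.2

end

end Fermat.Agent.S27GR
end MergeWrap_S27_GR_RootsRed

section MergeWrap_S27_GR_LiftEval -- from S27/GR/LiftEval.lean

/-!
# Cluster B / GoodRed: bridging lemmas for (L4): evaluation at `x = c` on `K[x] = Algebra.adjoin K {x}` (helper21)

Bridging lemmas used by the assembly steps (L4), (C) of the discriminant chain:

* `RedModel.x_transcendental` : the base parameter `x` is transcendental over `K`;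
* `l4_evalAt K x hx c : Algebra.adjoin K {x} →+* K`, the evaluation at `x = c`, with
  `l4_isEvalAt_evalAt`, `l4_evalAt_surjective`, `l4_ker_evalAt : ker = span {piAt K x c}`;
* `l4_polyEquiv`-transport of divisibility: `l4_piAt_pow_dvd_iff`;
* `l4_numPts_integralClosure_eq_fibreCard` : the number of points of ALG-1/ALG-2 for the integral
  closure of `K[x]` and the evaluation at `c` is `fibreCard K x c`.
-/

set_option autoImplicit false

namespace Fermat.Agent.S27GR

open Polynomial IntermediateField
open scoped IntermediateField.algebraAdjoinAdjoin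

noncomputable section

variable {K k F Fk : Type*} [Field K] [Field k] [Field F] [Field Fk] [Algebra K F] [Algebra k Fk]

/-! ### scaling a polynomial into `A[X]` with a coefficient `1` -/

/-- Every nonzero polynomial over `K` is a constant times a polynomial over the valuation ring
`A` one of whose coefficients is `1`. -/
theorem l4_exists_scale_polynomial (A : ValuationSubring K) (P : K[X]) (hP : P ≠ 0) :
    ∃ (a : K) (Q : A[X]), a ≠ 0 ∧ P = C a * Q.map A.subtype ∧ ∃ j, Q.coeff j = 1 := by
  classical
  have hne : P.support.Nonempty := by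
    rw [Finset.nonempty_iff_ne_empty, Ne, Polynomial.support_eq_empty]
    exact hP
  obtain ⟨j, hj, hmax⟩ := Finset.exists_max_image P.support
    (fun i => A.valuation (P.coeff i)) hne
  have ha : P.coeff j ≠ 0 := Polynomial.mem_support_iff.mp hj
  have hcoef : ∀ i, (C (P.coeff j)⁻¹ * P).coeff i ∈ Set.range A.subtype := by
    intro i
    rw [Polynomial.coeff_C_mul]
    by_cases hi : i ∈ P.support
    · have h1 : A.valuation ((P.coeff j)⁻¹ * P.coeff i) ≤ 1 := by
        rw [map_mul, map_inv₀]
        have h2 := hmax i hi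
        have h3 : A.valuation (P.coeff j) ≠ 0 := by
          rw [Ne, map_eq_zero]
          exact ha
        calc (A.valuation (P.coeff j))⁻¹ * A.valuation (P.coeff i)
            ≤ (A.valuation (P.coeff j))⁻¹ * A.valuation (P.coeff j) :=
              mul_le_mul_right h2 _
          _ = 1 := inv_mul_cancel₀ h3
      exact ⟨⟨_, (A.valuation_le_one_iff _).mp h1⟩, rfl⟩
    · rw [Polynomial.notMem_support_iff.mp hi, mul_zero]
      exact ⟨0, rfl⟩
  obtain ⟨Q, hQ⟩ := (Polynomial.lifts_iff_coeff_lifts _).mpr hcoef
  refine ⟨P.coeff j, Q, ha, ?_, j, ?_⟩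
  · have hQ' : Q.map A.subtype = C (P.coeff j)⁻¹ * P := hQ
    rw [hQ', ← mul_assoc, ← C_mul, mul_inv_cancel₀ ha, C_1, one_mul]
  · apply Subtype.val_injective
    have h1 := congrArg (fun p => p.coeff j) (show Q.map A.subtype = C (P.coeff j)⁻¹ * P from hQ)
    simp only [Polynomial.coeff_map, Polynomial.coeff_C_mul] at h1
    rw [inv_mul_cancel₀ ha] at h1
    exact h1

/-! ### the evaluation `A[X] → O`, `X ↦ x`, and transcendence of `x` -/

namespace RedModel

variable (M : RedModel K k F Fk)

/-- the inclusion `A → O`. -/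
def l4_inclAO : M.A →+* M.O where
  toFun a := ⟨algebraMap K F a, M.map_mem a⟩
  map_one' := Subtype.ext (by simp)
  map_mul' a b := Subtype.ext (by simp)
  map_zero' := Subtype.ext (by simp)
  map_add' a b := Subtype.ext (by simp)

@[simp] theorem l4_coe_inclAO (a : M.A) : ((M.l4_inclAO a : M.O) : F) = algebraMap K F a := rfl

theorem l4_rho_inclAO (a : M.A) : M.rho (M.l4_inclAO a) = algebraMap k Fk (M.res a) := M.rho_map a

/-- the evaluation `A[X] → O`, `X ↦ x`. -/
def l4_evO : Polynomial M.A →+* M.O := Polynomial.eval₂RingHom M.l4_inclAO ⟨M.x, M.x_mem⟩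

theorem l4_coe_evO (P : Polynomial M.A) :
    ((M.l4_evO P : M.O) : F) = Polynomial.aeval M.x (P.map M.A.subtype) := by
  have h : (M.O.subtype.comp M.l4_evO) =
      ((Polynomial.aeval M.x : K[X] →ₐ[K] F).toRingHom.comp
        (Polynomial.mapRingHom M.A.subtype)) := by
    apply Polynomial.ringHom_ext
    · intro a
      simp [l4_evO]
    · simp [l4_evO]
  exact congrArg (fun f => f P) h

theorem l4_rho_evO (P : Polynomial M.A) :
    M.rho (M.l4_evO P) = Polynomial.aeval M.xbar (P.map M.res) := by
  have h : (M.rho.comp M.l4_evO) =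
      ((Polynomial.aeval M.xbar : k[X] →ₐ[k] Fk).toRingHom.comp
        (Polynomial.mapRingHom M.res)) := by
    apply Polynomial.ringHom_ext
    · intro a
      simp [l4_evO, l4_rho_inclAO]
    · simp [l4_evO, xbar]
  exact congrArg (fun f => f P) h

/-- The base parameter `x` is transcendental over `K`. -/
theorem l4_x_transcendental : Transcendental K M.x := by
  intro halg
  obtain ⟨P, hP0, hP⟩ := halg
  obtain ⟨a, Q, ha, hPQ, j, hj⟩ := l4_exists_scale_polynomial M.A P hP0
  have h1 : Polynomial.aeval M.x (Q.map M.A.subtype) = 0 := by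
    rw [hPQ, map_mul, Polynomial.aeval_C] at hP
    rcases mul_eq_zero.mp hP with h | h
    · exact absurd ((map_eq_zero_iff _ (algebraMap K F).injective).mp h) ha
    · exact h
  have h2 : M.l4_evO Q = 0 := Subtype.ext (by rw [l4_coe_evO, h1]; rfl)
  have h3 : Polynomial.aeval M.xbar (Q.map M.res) = 0 := by
    rw [← l4_rho_evO, h2, map_zero]
  have h4 : Q.map M.res = 0 := by
    by_contra hne
    exact M.x_trans ⟨_, hne, h3⟩
  have h5 := congrArg (fun p => p.coeff j) h4
  simp only [Polynomial.coeff_map, hj, map_one, Polynomial.coeff_zero] at h5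
  exact one_ne_zero h5

theorem l4_xbar_transcendental : Transcendental k M.xbar := M.x_trans

end RedModel

/-! ### evaluation at `x = c` on `K[x]` -/

section EvalAt

variable (K) in
/-- the isomorphism `K[X] ≃ K[x]` for a transcendental `x`. -/
def l4_polyEquiv (x : F) (hx : Transcendental K x) : K[X] ≃ₐ[K] Algebra.adjoin K {x} :=
  Polynomial.algEquivOfTranscendental K x hx

theorem l4_coe_polyEquiv (x : F) (hx : Transcendental K x) (P : K[X]) :
    ((l4_polyEquiv K x hx P : Algebra.adjoin K {x}) : F) = Polynomial.aeval x P := by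
  simp [l4_polyEquiv, Polynomial.algEquivOfTranscendental_apply]

theorem l4_polyEquiv_X (x : F) (hx : Transcendental K x) : l4_polyEquiv K x hx X = genAdj x :=
  Subtype.ext (by rw [l4_coe_polyEquiv]; simp [genAdj])

theorem l4_polyEquiv_C (x : F) (hx : Transcendental K x) (a : K) :
    l4_polyEquiv K x hx (C a) = algebraMap K (Algebra.adjoin K {x}) a :=
  Subtype.ext (by rw [l4_coe_polyEquiv]; simp)

theorem l4_polyEquiv_X_sub_C (x : F) (hx : Transcendental K x) (c : K) :
    l4_polyEquiv K x hx (X - C c) = piAt K x c := by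
  rw [map_sub, l4_polyEquiv_X, l4_polyEquiv_C]
  rfl

/-- transport of divisibility by powers of `x - c`. -/
theorem l4_piAt_pow_dvd_iff (x : F) (hx : Transcendental K x) (c : K) (m : ℕ) (P : K[X]) :
    piAt K x c ^ m ∣ l4_polyEquiv K x hx P ↔ (X - C c) ^ m ∣ P := by
  rw [← l4_polyEquiv_X_sub_C x hx c, ← map_pow]
  exact map_dvd_iff (l4_polyEquiv K x hx)

/-- the image of a polynomial in `K(x)`. -/
theorem l4_algebraMap_polyEquiv (x : F) (hx : Transcendental K x) (P : K[X]) :
    algebraMap (Algebra.adjoin K {x}) K⟮x⟯ (l4_polyEquiv K x hx P) =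
      Polynomial.aeval (⟨x, mem_adjoin_simple_self K x⟩ : K⟮x⟯) P := by
  apply Subtype.ext
  rw [IntermediateField.algebraAdjoinAdjoin.coe_algebraMap, l4_coe_polyEquiv]
  have h : ((Polynomial.aeval (⟨x, mem_adjoin_simple_self K x⟩ : K⟮x⟯) P : K⟮x⟯) : F) =
      Polynomial.aeval ((⟨x, mem_adjoin_simple_self K x⟩ : K⟮x⟯) : F) P := by
    rw [← IntermediateField.algebraMap_apply, ← Polynomial.aeval_algebraMap_apply]
    rfl
  rw [h]

variable (K) in
/-- evaluation at `x = c` on `K[x]`. -/
def l4_evalAt (x : F) (hx : Transcendental K x) (c : K) : Algebra.adjoin K {x} →+* K :=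
  ((Polynomial.aeval c : K[X] →ₐ[K] K).comp (l4_polyEquiv K x hx).symm.toAlgHom).toRingHom

theorem l4_evalAt_polyEquiv (x : F) (hx : Transcendental K x) (c : K) (P : K[X]) :
    l4_evalAt K x hx c (l4_polyEquiv K x hx P) = P.eval c := by
  simp [l4_evalAt]

theorem l4_isEvalAt_evalAt (x : F) (hx : Transcendental K x) (c : K) :
    IsEvalAt x c (l4_evalAt K x hx c) := by
  constructor
  · rw [← l4_polyEquiv_X x hx, l4_evalAt_polyEquiv, Polynomial.eval_X]
  · intro a
    rw [← l4_polyEquiv_C x hx, l4_evalAt_polyEquiv, Polynomial.eval_C]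

theorem l4_evalAt_surjective (x : F) (hx : Transcendental K x) (c : K) :
    Function.Surjective (l4_evalAt K x hx c) := fun a =>
  ⟨algebraMap K _ a, (l4_isEvalAt_evalAt x hx c).2 a⟩

theorem l4_ker_evalAt (x : F) (hx : Transcendental K x) (c : K) :
    RingHom.ker (l4_evalAt K x hx c) = Ideal.span {piAt K x c} := by
  ext y
  obtain ⟨P, rfl⟩ := (l4_polyEquiv K x hx).surjective y
  rw [RingHom.mem_ker, l4_evalAt_polyEquiv, Ideal.mem_span_singleton,
    ← pow_one (piAt K x c), l4_piAt_pow_dvd_iff, pow_one, Polynomial.dvd_iff_isRoot,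
    Polynomial.IsRoot.def]

/-- an evaluation at `c` is THE evaluation at `c`. -/
theorem l4_eq_evalAt_of_isEvalAt (x : F) (hx : Transcendental K x) (c : K)
    (ev : Algebra.adjoin K {x} →+* K) (hev : IsEvalAt x c ev) : ev = l4_evalAt K x hx c := by
  have h : ev.comp (l4_polyEquiv K x hx).toAlgHom.toRingHom =
      (l4_evalAt K x hx c).comp (l4_polyEquiv K x hx).toAlgHom.toRingHom := by
    apply Polynomial.ringHom_ext
    · intro a
      have h1 := hev.2 a
      have h2 := (l4_isEvalAt_evalAt x hx c).2 a
      change ev (l4_polyEquiv K x hx (C a)) = l4_evalAt K x hx c (l4_polyEquiv K x hx (C a))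
      rw [l4_polyEquiv_C, h1, h2]
    · have h1 := hev.1
      have h2 := (l4_isEvalAt_evalAt x hx c).1
      change ev (l4_polyEquiv K x hx X) = l4_evalAt K x hx c (l4_polyEquiv K x hx X)
      rw [l4_polyEquiv_X, h1, h2]
  ext y
  obtain ⟨P, rfl⟩ := (l4_polyEquiv K x hx).surjective y
  exact congrArg (fun f => f P) h

/-! ### `numPts` of the integral closure is `fibreCard` -/

theorem l4_mem_intCl_iff (x y : F) :
    y ∈ intCl K x ↔ IsIntegral (Algebra.adjoin K {x}) y := Iff.rfl

/-- the points of ALG-1/ALG-2 over `ev = evaluation at c` are the points of the fibre. -/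
def l4_numPtsEquiv (x : F) (hx : Transcendental K x) (c : K)
    (ev : Algebra.adjoin K {x} →+* K) (hev : IsEvalAt x c ev) :
    {χ : (integralClosure (Algebra.adjoin K {x}) F) →+* K //
        ∀ r : Algebra.adjoin K {x},
          χ (algebraMap (Algebra.adjoin K {x}) (integralClosure (Algebra.adjoin K {x}) F) r)
            = ev r} ≃
      {χ : intCl K x →ₐ[K] K // ∀ h : x ∈ intCl K x, χ ⟨x, h⟩ = c} where
  toFun χ := ⟨{ toRingHom := (χ.1 : (integralClosure (Algebra.adjoin K {x}) F) →+* K)
                commutes' := fun a => by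
                  have h1 := χ.2 (algebraMap K (Algebra.adjoin K {x}) a)
                  rw [hev.2 a] at h1
                  exact h1 },
    fun h => by
      have h1 := χ.2 (genAdj x)
      rw [hev.1] at h1
      exact h1⟩
  invFun χ := ⟨(χ.1 : intCl K x →+* K), fun r => by
    have h1 : IsEvalAt x c (((χ.1 : intCl K x →+* K)).comp
        (algebraMap (Algebra.adjoin K {x}) (integralClosure (Algebra.adjoin K {x}) F))) := by
      constructor
      · exact χ.2 _
      · intro a
        exact χ.1.commutes a
    have h2 := l4_eq_evalAt_of_isEvalAt x hx c _ h1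
    have h3 := l4_eq_evalAt_of_isEvalAt x hx c ev hev
    rw [h3, ← h2]
    rfl⟩
  left_inv χ := rfl
  right_inv χ := rfl

theorem l4_numPts_integralClosure_eq_fibreCard (x : F) (hx : Transcendental K x) (c : K)
    (ev : Algebra.adjoin K {x} →+* K) (hev : IsEvalAt x c ev) :
    numPts (Algebra.adjoin K {x}) F (integralClosure (Algebra.adjoin K {x}) F) ev =
      fibreCard K x c :=
  Nat.card_congr (l4_numPtsEquiv x hx c ev hev)

end EvalAt

end

end Fermat.Agent.S27GR
end MergeWrap_S27_GR_LiftEval

section MergeWrap_S27_GR_Lift -- from S27/GR/Lift.lean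

/-!
# Cluster B / GoodRed, step (L4): assembly of the LIFT STEP (helper21)

`liftStep_of` : from a lifted basis (L1), the index statement (L2), the roots lemma (L3,
`RootsRed.lean`) and the tame discriminant bound (ALG-2, `DiscUpperTame` for
`R = K[x]`, `Kx = K(x)`, `L = F`), we get `LiftStep M n BD`.

`liftStep` : the same with (L1), (L2) as `Prop`s.
-/

set_option autoImplicit false

namespace Fermat.Agent.S27GR

open Polynomial IntermediateField
open scoped IntermediateField.algebraAdjoinAdjoin

noncomputable section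

universe uK uk uF uFk

variable {K : Type uK} {k : Type uk} {F : Type uF} {Fk : Type uFk}
  [Field K] [Field k] [Field F] [Field Fk] [Algebra K F] [Algebra k Fk]

/-- (ALG-2) at the evaluation `x = c`, in polynomial language:
if `(X - c)^m ∣ dK` where `dK(x)` is the Gram determinant of a `K[x]`-basis `β` of the integral
closure, then `m + fibreCard K x c ≤ n`. -/
theorem add_fibreCard_le_of_pow_dvd [IsAlgClosed K] [CharZero K]
    (x : F) (hx : Transcendental K x) (n : ℕ)
    (hfin : Module.finrank K⟮x⟯ F = n) (hpos : 0 < n)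
    (hA2 : DiscUpperTame.{_, _, _, uK} (Algebra.adjoin K {x}) K⟮x⟯ F)
    (β : Fin n → F) (dK : K[X])
    (hβint : ∀ i, β i ∈ intCl K x) (hβLI : LinearIndependent K⟮x⟯ β)
    (hβspan : ∀ y ∈ intCl K x, ∃ c : Fin n → Algebra.adjoin K {x}, y = ∑ i, c i • β i)
    (hdK : Polynomial.aeval (⟨x, mem_adjoin_simple_self K x⟩ : K⟮x⟯) dK = gramDet K⟮x⟯ F β)
    (c : K) (m : ℕ) (hm : (X - C c) ^ m ∣ dK) :
    m + fibreCard K x c ≤ n := by
  have : FiniteDimensional K⟮x⟯ F := Module.finite_of_finrank_pos (by rw [hfin]; exact hpos)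
  have : CharZero K⟮x⟯ := charZero_of_injective_algebraMap (algebraMap K K⟮x⟯).injective
  have : Algebra.IsSeparable K⟮x⟯ F := inferInstance
  have h := hA2 n β (fun i => hβint i) hβLI hfin (fun y hy => hβspan y hy) K
    (l4_evalAt K x hx c) (l4_evalAt_surjective x hx c) (piAt K x c) (l4_ker_evalAt x hx c)
    (l4_polyEquiv K x hx dK) m (by rw [l4_algebraMap_polyEquiv, hdK])
    ((l4_piAt_pow_dvd_iff x hx c m dK).mpr hm)
  rwa [l4_numPts_integralClosure_eq_fibreCard x hx c _ (l4_isEvalAt_evalAt x hx c)] at h

/-- **(L4)** the LIFT STEP from a lifted basis (L1), the index statement (L2), the roots lemma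
(L3) and the tame discriminant bound (ALG-2). -/
theorem liftStep_of [IsAlgClosed K] [CharZero K] (M : RedModel K k F Fk) (n : ℕ)
    (hdeg : DegData M n) (BD : BranchData M n)
    (hA2 : DiscUpperTame.{_, _, _, uK} (Algebra.adjoin K {M.x}) K⟮M.x⟯ F)
    (LB : LiftedBasis M n) (hL2 : IndexNoRoot M n LB) : LiftStep M n BD := by
  classical
  have hx : Transcendental K M.x := M.l4_x_transcendental
  have hxb : Transcendental k M.xbar := M.x_trans
  obtain ⟨β, I, dK, hβint, hβLI, hβspan, hdK, hD, hI⟩ := hL2
  -- (ALG-2) in polynomial language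
  have key : ∀ (c : K) (m : ℕ), (X - C c) ^ m ∣ dK → m + fibreCard K M.x c ≤ n :=
    fun c m hm => add_fibreCard_le_of_pow_dvd M.x hx n hdeg.deg hdeg.pos hA2 β dK hβint hβLI
      hβspan hdK c m hm
  -- nonvanishing
  have hD0 : LB.D ≠ 0 := by
    intro h0
    apply LB.D_bar_ne
    rw [h0, Polynomial.map_zero]
  have hDK0 : LB.D.map M.A.subtype ≠ 0 := by
    intro h0
    apply hD0
    apply map_subtype_injective
    rw [h0, Polynomial.map_zero]
  have hI2dK : I ^ 2 * dK ≠ 0 := by rw [← hD]; exact hDK0
  have hI0 : I ^ 2 ≠ 0 := left_ne_zero_of_mul hI2dK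
  -- multiplicities of roots in `A`
  have hmult : ∀ r : M.A, LB.D.rootMultiplicity r = dK.rootMultiplicity (r : K) := by
    intro r
    rw [Polynomial.eq_rootMultiplicity_map (f := M.A.subtype) Subtype.val_injective r, hD,
      Polynomial.rootMultiplicity_mul hI2dK]
    have h1 : (I ^ 2).rootMultiplicity (r : K) = 0 := by
      rw [Polynomial.rootMultiplicity_eq_zero_iff]
      intro hroot
      exfalso
      rw [Polynomial.IsRoot.def, Polynomial.eval_pow] at hroot
      exact hI (r : K) r.2 (pow_eq_zero_iff (two_ne_zero) |>.mp hroot)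
    have h2 : M.A.subtype r = (r : K) := rfl
    rw [h2, h1, zero_add]
  -- roots in `A` are branch values
  have hrootS : ∀ r : M.A, LB.D.IsRoot r → (r : K) ∈ BD.S := by
    intro r hr
    by_contra hS
    have h1 : 0 < LB.D.rootMultiplicity r := (Polynomial.rootMultiplicity_pos hD0).mpr hr
    rw [hmult r] at h1
    have h2 := key (r : K) _ (Polynomial.pow_rootMultiplicity_dvd dK (r : K))
    rw [BD.unram (r : K) hS] at h2
    omega
  refine ⟨fun i => M.rho ⟨LB.b i, LB.mem_O i⟩, LB.basis,
    l4_polyEquiv k M.xbar hxb (LB.D.map M.res), ?_, ?_, ?_⟩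
  · rw [l4_algebraMap_polyEquiv, ← LB.D_gram_bar]
    rfl
  · intro h0
    apply LB.D_bar_ne
    apply (l4_polyEquiv k M.xbar hxb).injective
    rw [h0, map_zero]
  · intro c hc m hm
    rw [l4_piAt_pow_dvd_iff] at hm
    have hm1 : m ≤ (LB.D.map M.res).rootMultiplicity (M.res ⟨c, hc⟩) :=
      (Polynomial.le_rootMultiplicity_iff LB.D_bar_ne).mpr hm
    rw [rootMultiplicity_map_res M.res_eq_zero LB.D LB.D_bar_ne] at hm1
    have hfil : ∀ r ∈ LB.D.roots.filter (fun r => M.res r = M.res ⟨c, hc⟩),
        (r : K) ∈ BD.S ∧ M.res r = M.res ⟨c, hc⟩ := by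
      intro r hr
      rw [Multiset.mem_filter] at hr
      exact ⟨hrootS r ((Polynomial.mem_roots hD0).mp hr.1), hr.2⟩
    constructor
    · intro hcS
      have hall : ∀ r ∈ LB.D.roots.filter (fun r => M.res r = M.res ⟨c, hc⟩),
          r = (⟨c, hc⟩ : M.A) := by
        intro r hr
        obtain ⟨h1, h2⟩ := hfil r hr
        exact Subtype.ext (BD.S_inj (r : K) h1 c hcS r.2 hc h2)
      have hrep := Multiset.eq_replicate_card.mpr hall
      have hcount : Multiset.card (LB.D.roots.filter (fun r => M.res r = M.res ⟨c, hc⟩)) ≤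
          LB.D.rootMultiplicity (⟨c, hc⟩ : M.A) := by
        rw [← Polynomial.count_roots]
        calc Multiset.card (LB.D.roots.filter (fun r => M.res r = M.res ⟨c, hc⟩))
            = Multiset.count (⟨c, hc⟩ : M.A)
                (LB.D.roots.filter (fun r => M.res r = M.res ⟨c, hc⟩)) := by
              conv_rhs => rw [hrep]
              rw [Multiset.count_replicate_self]
          _ ≤ Multiset.count (⟨c, hc⟩ : M.A) LB.D.roots :=
              Multiset.count_le_of_le _ (Multiset.filter_le _ _)
      rw [hmult ⟨c, hc⟩] at hcount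
      have h2 := key c _ (Polynomial.pow_rootMultiplicity_dvd dK c)
      have h3 : (((⟨c, hc⟩ : M.A)) : K) = c := rfl
      rw [h3] at hcount
      omega
    · intro hno
      have hempty : LB.D.roots.filter (fun r => M.res r = M.res ⟨c, hc⟩) = 0 := by
        apply Multiset.eq_zero_of_forall_notMem
        intro r hr
        obtain ⟨h1, h2⟩ := hfil r hr
        exact hno (r : K) h1 r.2 h2
      rw [hempty, Multiset.card_zero] at hm1
      omega

/-- **(L4)** `LiftStep` from (L1), (L2) as `Prop`s and (ALG-2). -/
theorem liftStep [IsAlgClosed K] [CharZero K] (M : RedModel K k F Fk) (n : ℕ)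
    (hdeg : DegData M n) (BD : BranchData M n)
    (hA2 : DiscUpperTame.{_, _, _, uK} (Algebra.adjoin K {M.x}) K⟮M.x⟯ F)
    (hL1 : LiftBasisStep M n) (hL2 : ∀ LB : LiftedBasis M n, IndexNoRoot M n LB) :
    LiftStep M n BD := by
  obtain ⟨LB⟩ := hL1
  exact liftStep_of M n hdeg BD hA2 LB (hL2 LB)

end

end Fermat.Agent.S27GR
end MergeWrap_S27_GR_Lift
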