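import Mathlib
import Fermat.Agent.MUL.Orig.S27.GR.AlgStatements
import Fermat.Agent.MUL.Orig.S27.GR.Steps
import Fermat.Agent.MUL.Orig.S27.GR.LiftBasis
import Fermat.Agent.MUL.Orig.S27.GR.DefsA
import Fermat.Agent.MUL.Lib.BadRed.Graph.Deuring.RRDim

section MergeWrap_S27_GR_DiscAux -- from S27/GR/DiscAux.lean

/-!
# Cluster B / GoodRed : auxiliary lemmas for the discriminant bounds (helper59)

* `pow_dvd_det_of_ker` : if `ev : R → κ` is onto a field with kernel `(π)` and a subspace `W` of
  `κ^n` is killed by `M mod π`, then `π ^ dim W ∣ det M`.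
-/

set_option autoImplicit false

namespace Fermat.Agent.S27GR

open Matrix

section LinAlg

variable {R κ : Type*} [CommRing R] [Field κ]

/-- An element of `R` whose image in the field `κ` is nonzero is coprime to any power of a
generator of the kernel. -/
theorem isCoprime_pow_of_ev_ne_zero (ev : R →+* κ) (hev : Function.Surjective ev) (π : R)
    (hπ : RingHom.ker ev = Ideal.span {π}) {u : R} (hu : ev u ≠ 0) (k : ℕ) :
    IsCoprime (π ^ k) u := by
  obtain ⟨w, hw⟩ := hev (ev u)⁻¹
  have h1 : w * u - 1 ∈ RingHom.ker ev := by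
    rw [RingHom.mem_ker, map_sub, map_mul, hw, inv_mul_cancel₀ hu, map_one, sub_self]
  rw [hπ, Ideal.mem_span_singleton'] at h1
  obtain ⟨t, ht⟩ := h1
  have : IsCoprime π u := ⟨-t, w, by linear_combination -ht⟩
  exact this.pow_left

open Module in
/-- A basis of `κ^n` containing `dim W` vectors of the subspace `W`. -/
theorem exists_basis_mem_submodule {n : ℕ} (W : Submodule κ (Fin n → κ)) :
    ∃ (B : Basis (Fin n) κ (Fin n → κ)) (S : Finset (Fin n)),
      S.card = finrank κ W ∧ ∀ j ∈ S, B j ∈ W := by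
  classical
  obtain ⟨W', hW'⟩ := Submodule.exists_isCompl W
  set c := finrank κ W with hc
  set c' := finrank κ W' with hc'
  have hsum : c + c' = n := by
    have := Submodule.finrank_add_eq_of_isCompl hW'
    simpa using this
  let bW : Basis (Fin c) κ W := finBasis κ W
  let bW' : Basis (Fin c') κ W' := finBasis κ W'
  let b1 : Basis (Fin c ⊕ Fin c') κ (Fin n → κ) :=
    (bW.prod bW').map (Submodule.prodEquivOfIsCompl W W' hW')
  let e : Fin c ⊕ Fin c' ≃ Fin n := finSumFinEquiv.trans (finCongr hsum)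
  let f : Fin c ↪ Fin n := ⟨fun i => e (Sum.inl i), fun i j h => Sum.inl_injective (e.injective h)⟩
  refine ⟨b1.reindex e, Finset.univ.map f, ?_, ?_⟩
  · simp
  · intro j hj
    simp only [Finset.mem_map, Finset.mem_univ, true_and] at hj
    obtain ⟨i, rfl⟩ := hj
    have h1 : (b1.reindex e) (f i) = ((bW i : W) : Fin n → κ) := by
      have : e.symm (f i) = Sum.inl i := e.symm_apply_apply _
      rw [Basis.reindex_apply, this]
      simp [b1]
    rw [h1]
    exact (bW i).2

/-- If the subspace `W` of `κ^n` is killed by the reduction of `M`, then `π ^ dim W ∣ det M`. -/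
theorem pow_dvd_det_of_ker (ev : R →+* κ) (hev : Function.Surjective ev) (π : R)
    (hπ : RingHom.ker ev = Ideal.span {π})
    {n : ℕ} (M : Matrix (Fin n) (Fin n) R) (W : Submodule κ (Fin n → κ))
    (hW : ∀ v ∈ W, (M.map ev) *ᵥ v = 0) : π ^ (Module.finrank κ W) ∣ M.det := by
  classical
  obtain ⟨B, S, hScard, hBW⟩ := exists_basis_mem_submodule W
  set c := Module.finrank κ W with hc
  let Ubar : Matrix (Fin n) (Fin n) κ := (Pi.basisFun κ (Fin n)).toMatrix B
  have hUbar_apply : ∀ i j, Ubar i j = B j i := by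
    intro i j
    simp [Ubar, Module.Basis.toMatrix_apply]
  have hUbar_det : Ubar.det ≠ 0 := by
    have h1 : Ubar * B.toMatrix (Pi.basisFun κ (Fin n)) = 1 :=
      Module.Basis.toMatrix_mul_toMatrix_flip _ _
    intro h0
    have := congrArg Matrix.det h1
    rw [Matrix.det_mul, h0, zero_mul, Matrix.det_one] at this
    exact zero_ne_one this
  -- lift `Ubar`
  choose U0 hU0 using fun i j => hev (Ubar i j)
  let U : Matrix (Fin n) (Fin n) R := Matrix.of U0
  have hUmap : U.map ev = Ubar := by
    ext i j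
    simp [U, hU0]
  have hUdet : ev U.det ≠ 0 := by
    rw [RingHom.map_det, RingHom.mapMatrix_apply, hUmap]
    exact hUbar_det
  -- columns in `S` of `M * U` vanish mod `π`
  have hcol : ∀ j ∈ S, ∀ i, ev ((M * U) i j) = 0 := by
    intro j hj i
    have h1 : (M * U).map ev = M.map ev * Ubar := by
      rw [Matrix.map_mul, hUmap]
    have h2 : ((M * U).map ev) i j = (M.map ev *ᵥ (B j)) i := by
      rw [h1]
      simp only [Matrix.mul_apply, Matrix.mulVec, dotProduct, hUbar_apply]
    have h3 := hW (B j) (hBW j hj)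
    have : ((M * U).map ev) i j = 0 := by rw [h2, h3]; rfl
    simpa using this
  have hdiv : ∀ j ∈ S, ∀ i, ∃ q : R, (M * U) i j = π * q := by
    intro j hj i
    have h1 : (M * U) i j ∈ RingHom.ker ev := hcol j hj i
    rw [hπ, Ideal.mem_span_singleton'] at h1
    obtain ⟨q, hq⟩ := h1
    exact ⟨q, by rw [← hq, mul_comm]⟩
  let N : Matrix (Fin n) (Fin n) R := Matrix.of fun i j =>
    if h : j ∈ S then Classical.choose (hdiv j h i) else (M * U) i j
  let v : Fin n → R := fun j => if j ∈ S then π else 1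
  have hMU : M * U = Matrix.of fun i j => v j * N i j := by
    ext i j
    by_cases h : j ∈ S
    · simp only [Matrix.of_apply, v, N, h, dif_pos, if_true]
      exact Classical.choose_spec (hdiv j h i)
    · simp [v, N, h]
  have hprod : ∏ j, v j = π ^ c := by
    simp only [v]
    rw [Finset.prod_ite, Finset.prod_const_one, mul_one, Finset.prod_const]
    congr 1
    rw [← hScard]
    congr 1
    ext j
    simp
  have hdet : M.det * U.det = π ^ c * N.det := by
    rw [← Matrix.det_mul, hMU, Matrix.det_mul_row, hprod]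
  have hcop : IsCoprime (π ^ c) U.det := isCoprime_pow_of_ev_ne_zero ev hev π hπ hUdet c
  exact hcop.dvd_of_dvd_mul_right ⟨N.det, hdet⟩

end LinAlg

end Fermat.Agent.S27GR
end MergeWrap_S27_GR_DiscAux

section MergeWrap_S27_GR_DiscChar -- from S27/GR/DiscChar.lean

/-!
# Cluster B / GoodRed : points of a finite free integral algebra and the rank of its trace form
(helper59)

`C` a finite free `R`-algebra with basis `c`, integral over `R`; `ev : R → κ` onto an algebraically
closed field with kernel `(π)`.  `Pts C ev` = ring homs `C → κ` over `ev`.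

* `exists_pt_of_eigen` : every eigenvalue of the reduced regular representation is `χ w`.
* `trace_redRep_eq_zero` : if all `χ y = 0` then `Tr(y z) ≡ 0 mod π`.
* `pow_dvd_det_traceMatrix` : `π ^ (n - #Pts) ∣ det (Tr (c i * c j))`.
-/

set_option autoImplicit false

namespace Fermat.Agent.S27GR

open Matrix

section Order

variable {R κ : Type*} [CommRing R] [Field κ]
variable {C : Type*} [CommRing C] [Algebra R C]

/-- Points of `C` over `ev`. -/
abbrev Pts (C : Type*) [CommRing C] [Algebra R C] (ev : R →+* κ) : Type _ :=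
  {χ : C →+* κ // ∀ r : R, χ (algebraMap R C r) = ev r}

variable {n : ℕ} (c : Module.Basis (Fin n) R C) (ev : R →+* κ)

/-- The regular representation of `C` in the basis `c`, reduced along `ev`. -/
noncomputable def redRep : C →+* Matrix (Fin n) (Fin n) κ :=
  (RingHom.mapMatrix ev).comp (Algebra.leftMulMatrix c).toRingHom

theorem redRep_apply (y : C) : redRep c ev y = (Algebra.leftMulMatrix c y).map ev := rfl

theorem redRep_algebraMap (r : R) : redRep c ev (algebraMap R C r) = Matrix.scalar (Fin n) (ev r) := by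
  rw [redRep_apply, AlgHom.commutes]
  ext i j
  simp only [Matrix.map_apply, Matrix.algebraMap_matrix_apply, Matrix.scalar_apply,
    Matrix.diagonal_apply]
  split_ifs <;> simp

theorem trace_redRep (y : C) : (redRep c ev y).trace = ev (Algebra.trace R C y) := by
  rw [Algebra.trace_eq_matrix_trace c, redRep_apply]
  simp [Matrix.trace, map_sum]

theorem pt_smul (χ : Pts C ev) (r : R) (y : C) : χ.1 (r • y) = ev r * χ.1 y := by
  rw [Algebra.smul_def, map_mul, χ.2]

variable {c ev}

/-- (E) every eigenvalue of the reduced regular representation of `w` is the value at `w` of a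
point of `C` over `ev`. -/
theorem exists_pt_of_eigen [IsAlgClosed κ] [Algebra.IsIntegral R C]
    (hev : Function.Surjective ev) (w : C) (μ : κ) (v : Fin n → κ) (hv : v ≠ 0)
    (hw : redRep c ev w *ᵥ v = μ • v) : ∃ χ : Pts C ev, χ.1 w = μ := by
  classical
  -- the annihilator of `v`
  let 𝔞 : Ideal C :=
    { carrier := {z | redRep c ev z *ᵥ v = 0}
      zero_mem' := by simp
      add_mem' := by
        intro x y hx hy
        simp only [Set.mem_ofPred_eq] at hx hy ⊢
        rw [map_add, Matrix.add_mulVec, hx, hy, add_zero]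
      smul_mem' := by
        intro a z hz
        simp only [Set.mem_ofPred_eq, smul_eq_mul] at hz ⊢
        rw [map_mul, ← Matrix.mulVec_mulVec, hz, Matrix.mulVec_zero] }
  have h𝔞 : ∀ z, z ∈ 𝔞 ↔ redRep c ev z *ᵥ v = 0 := fun z => Iff.rfl
  have h1 : 𝔞 ≠ ⊤ := by
    intro h
    have : (1 : C) ∈ 𝔞 := by rw [h]; trivial
    rw [h𝔞, map_one, Matrix.one_mulVec] at this
    exact hv this
  obtain ⟨𝔪, h𝔪, hle⟩ := Ideal.exists_le_maximal 𝔞 h1
  obtain ⟨μ', hμ'⟩ := hev μ
  have hwμ : w - algebraMap R C μ' ∈ 𝔪 := by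
    apply hle
    rw [h𝔞, map_sub, Matrix.sub_mulVec, hw, redRep_algebraMap, hμ']
    simp
  have hker : ∀ r : R, ev r = 0 → algebraMap R C r ∈ 𝔪 := by
    intro r hr
    apply hle
    rw [h𝔞, redRep_algebraMap, hr]
    simp
  letI : Field (C ⧸ 𝔪) := Ideal.Quotient.field 𝔪
  let q : C →+* C ⧸ 𝔪 := Ideal.Quotient.mk 𝔪
  let φ : R →+* C ⧸ 𝔪 := q.comp (algebraMap R C)
  have hφ : RingHom.ker ev ≤ RingHom.ker φ := by
    intro r hr
    rw [RingHom.mem_ker] at hr ⊢
    exact Ideal.Quotient.eq_zero_iff_mem.mpr (hker r hr)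
  let ψ : κ →+* C ⧸ 𝔪 := ev.liftOfSurjective hev ⟨φ, hφ⟩
  have hψ : ∀ r, ψ (ev r) = φ r := fun r => ev.liftOfSurjective_comp_apply hev ⟨φ, hφ⟩ r
  letI : Algebra κ (C ⧸ 𝔪) := ψ.toAlgebra
  have hint : Algebra.IsIntegral κ (C ⧸ 𝔪) := by
    refine ⟨fun x => ?_⟩
    obtain ⟨z, rfl⟩ := Ideal.Quotient.mk_surjective x
    obtain ⟨p, hp, hpz⟩ := Algebra.IsIntegral.isIntegral (R := R) z
    refine ⟨p.map ev, hp.map ev, ?_⟩
    rw [Polynomial.eval₂_map]
    have h2 : (algebraMap κ (C ⧸ 𝔪)).comp ev = q.comp (algebraMap R C) := by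
      ext r
      exact hψ r
    rw [h2, ← Polynomial.hom_eval₂, hpz, map_zero]
  have hbij : Function.Bijective (algebraMap κ (C ⧸ 𝔪)) :=
    IsAlgClosed.algebraMap_bijective_of_isIntegral
  let E : κ ≃+* C ⧸ 𝔪 := RingEquiv.ofBijective (algebraMap κ (C ⧸ 𝔪)) hbij
  have hE : ∀ x, E x = ψ x := fun x => rfl
  refine ⟨⟨E.symm.toRingHom.comp q, fun r => ?_⟩, ?_⟩
  · simp only [RingHom.coe_comp, Function.comp_apply, RingEquiv.toRingHom_eq_coe,
      RingHom.coe_coe]
    rw [RingEquiv.symm_apply_eq, hE, hψ]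
    rfl
  · simp only [RingHom.coe_comp, Function.comp_apply, RingEquiv.toRingHom_eq_coe,
      RingHom.coe_coe]
    rw [RingEquiv.symm_apply_eq, hE, ← hμ', hψ]
    have := Ideal.Quotient.eq.mpr hwμ
    exact this

/-- (N) if `y` is killed by all points over `ev` then `Tr (y z) ≡ 0` modulo `ker ev`. -/
theorem trace_redRep_eq_zero [IsAlgClosed κ] [Algebra.IsIntegral R C]
    (c : Module.Basis (Fin n) R C) (hev : Function.Surjective ev) (y : C) (hy : ∀ χ : Pts C ev, χ.1 y = 0) (z : C) :
    ev (Algebra.trace R C (y * z)) = 0 := by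
  classical
  rw [← trace_redRep c ev, Matrix.trace_eq_sum_roots_charpoly]
  apply Multiset.sum_eq_zero
  intro μ hμ
  have hroot : (redRep c ev (y * z)).charpoly.eval μ = 0 := by
    have := (Polynomial.mem_roots'.mp hμ).2
    exact this
  rw [Matrix.eval_charpoly] at hroot
  obtain ⟨v, hv, hv0⟩ := Matrix.exists_mulVec_eq_zero_iff.mpr hroot
  have hw : redRep c ev (y * z) *ᵥ v = μ • v := by
    rw [Matrix.sub_mulVec, sub_eq_zero] at hv0
    rw [← hv0]
    ext i
    simp [Matrix.mulVec, dotProduct, Matrix.scalar_apply, Matrix.diagonal_apply]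
  obtain ⟨χ, hχ⟩ := exists_pt_of_eigen (c := c) hev (y * z) μ v hv hw
  rw [← hχ, map_mul, hy χ, zero_mul]

variable (c ev)

/-- The vector of values of a point on the basis. -/
noncomputable def ptVec (χ : Pts C ev) : Fin n → κ := fun i => χ.1 (c i)

theorem pt_apply_eq_sum (χ : Pts C ev) (y : C) :
    χ.1 y = ∑ i, ev (c.repr y i) * χ.1 (c i) := by
  conv_lhs => rw [← c.sum_repr y]
  rw [map_sum]
  exact Finset.sum_congr rfl fun i _ => pt_smul ev χ _ _

theorem pt_sum_smul (χ : Pts C ev) (a : Fin n → R) :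
    χ.1 (∑ i, a i • c i) = ∑ i, ev (a i) * χ.1 (c i) := by
  rw [map_sum]
  exact Finset.sum_congr rfl fun i _ => pt_smul ev χ _ _

theorem linearIndependent_ptVec : LinearIndependent κ (fun χ : Pts C ev => ptVec c ev χ) := by
  classical
  have hD : LinearIndependent κ (fun χ : Pts C ev => ((χ.1 : C →* κ) : C → κ)) := by
    refine (linearIndependent_monoidHom C κ).comp (fun χ : Pts C ev => (χ.1 : C →* κ)) ?_
    intro χ χ' h
    apply Subtype.ext
    ext y
    exact DFunLike.congr_fun h y
  rw [linearIndependent_iff'] at hD ⊢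
  intro s g hg χ hχ
  refine hD s g ?_ χ hχ
  funext y
  simp only [Finset.sum_apply, Pi.smul_apply, smul_eq_mul, Pi.zero_apply, MonoidHom.coe_coe]
  have h1 : ∀ i, ∑ χ ∈ s, g χ * χ.1 (c i) = 0 := by
    intro i
    have := congrFun hg i
    simpa [ptVec] using this
  calc ∑ χ ∈ s, g χ * χ.1 y
      = ∑ χ ∈ s, ∑ i, ev (c.repr y i) * (g χ * χ.1 (c i)) := by
        refine Finset.sum_congr rfl fun χ _ => ?_
        rw [pt_apply_eq_sum c ev χ y, Finset.mul_sum]
        refine Finset.sum_congr rfl fun i _ => ?_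
        ring
    _ = ∑ i, ev (c.repr y i) * ∑ χ ∈ s, g χ * χ.1 (c i) := by
        rw [Finset.sum_comm]
        refine Finset.sum_congr rfl fun i _ => ?_
        rw [Finset.mul_sum]
    _ = 0 := by simp [h1]

include c in
theorem finite_pts : Finite (Pts C ev) :=
  (linearIndependent_ptVec c ev).finite_of_isNoetherian

include c in
theorem card_pts_le : Nat.card (Pts C ev) ≤ n := by
  haveI := finite_pts c ev
  haveI : Fintype (Pts C ev) := Fintype.ofFinite _
  rw [Nat.card_eq_fintype_card]
  simpa using (linearIndependent_ptVec c ev).fintype_card_le_finrank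

/-- The vectors of `κ^n` orthogonal to all points. -/
def nilSub : Submodule κ (Fin n → κ) where
  carrier := {v | ∀ χ : Pts C ev, ∑ i, v i * χ.1 (c i) = 0}
  zero_mem' := by simp
  add_mem' := by
    intro v w hv hw χ
    simp only [Pi.add_apply, add_mul, Finset.sum_add_distrib]
    rw [hv χ, hw χ, add_zero]
  smul_mem' := by
    intro a v hv χ
    simp only [Pi.smul_apply, smul_eq_mul, mul_assoc]
    rw [← Finset.mul_sum, hv χ, mul_zero]

theorem mem_nilSub {v : Fin n → κ} :
    v ∈ nilSub c ev ↔ ∀ χ : Pts C ev, ∑ i, v i * χ.1 (c i) = 0 := Iff.rfl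

theorem finrank_nilSub_ge : n - Nat.card (Pts C ev) ≤ Module.finrank κ (nilSub c ev) := by
  classical
  haveI := finite_pts c ev
  haveI : Fintype (Pts C ev) := Fintype.ofFinite _
  let Φ : (Fin n → κ) →ₗ[κ] (Pts C ev → κ) :=
    Matrix.mulVecLin (Matrix.of fun (χ : Pts C ev) (i : Fin n) => χ.1 (c i))
  have hker : LinearMap.ker Φ = nilSub c ev := by
    ext v
    rw [LinearMap.mem_ker, mem_nilSub]
    constructor
    · intro h χ
      have := congrFun h χ
      simp only [Φ, Matrix.mulVecLin_apply, Matrix.mulVec, dotProduct, Matrix.of_apply,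
        Pi.zero_apply] at this
      rw [← this]
      exact Finset.sum_congr rfl fun i _ => mul_comm _ _
    · intro h
      funext χ
      simp only [Φ, Matrix.mulVecLin_apply, Matrix.mulVec, dotProduct, Matrix.of_apply,
        Pi.zero_apply]
      rw [← h χ]
      exact Finset.sum_congr rfl fun i _ => mul_comm _ _
  have h1 := LinearMap.finrank_range_add_finrank_ker Φ
  have h2 : Module.finrank κ (LinearMap.range Φ) ≤ Fintype.card (Pts C ev) := by
    have := Submodule.finrank_le (LinearMap.range Φ)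
    simpa using this
  rw [hker] at h1
  rw [Nat.card_eq_fintype_card]
  have h3 : Module.finrank κ (Fin n → κ) = n := by simp
  omega

variable {c ev}

theorem traceMatrix_mulVec_nilSub [IsAlgClosed κ] [Algebra.IsIntegral R C]
    (hev : Function.Surjective ev) (v : Fin n → κ) (hv : v ∈ nilSub c ev) :
    ((Algebra.traceMatrix R c).map ev) *ᵥ v = 0 := by
  classical
  choose a ha using fun i => hev (v i)
  set y : C := ∑ j, a j • c j with hy
  have hχ : ∀ χ : Pts C ev, χ.1 y = 0 := by
    intro χ
    rw [hy, pt_sum_smul]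
    have := (mem_nilSub c ev).mp hv χ
    simpa [ha] using this
  funext i
  simp only [Matrix.mulVec, dotProduct, Matrix.map_apply, Algebra.traceMatrix_apply,
    Algebra.traceForm_apply, Pi.zero_apply]
  have h1 : ∑ j, ev (Algebra.trace R C (c i * c j)) * v j
      = ev (Algebra.trace R C (y * c i)) := by
    have h2 : y * c i = ∑ j, a j • (c i * c j) := by
      rw [hy, Finset.sum_mul]
      refine Finset.sum_congr rfl fun j _ => ?_
      rw [smul_mul_assoc, mul_comm]
    rw [h2, map_sum, map_sum]
    refine Finset.sum_congr rfl fun j _ => ?_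
    rw [LinearMap.map_smul, smul_eq_mul, map_mul ev, ha, mul_comm]
  rw [h1]
  exact trace_redRep_eq_zero c hev y hχ (c i)

/-- **Claim 1** (abstract form): `π ^ (n - #points)` divides the discriminant of the basis. -/
theorem pow_dvd_det_traceMatrix [IsAlgClosed κ] [Algebra.IsIntegral R C]
    (hev : Function.Surjective ev) (π : R) (hπ : RingHom.ker ev = Ideal.span {π}) :
    π ^ (n - Nat.card (Pts C ev)) ∣ (Algebra.traceMatrix R c).det := by
  have h1 := pow_dvd_det_of_ker ev hev π hπ (Algebra.traceMatrix R c) (nilSub c ev)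
    (fun v hv => traceMatrix_mulVec_nilSub hev v hv)
  exact (pow_dvd_pow π (finrank_nilSub_ge c ev)).trans h1

end Order

section Compare

variable {R κ : Type*} [CommRing R] [Field κ]
variable {C' C : Type*} [CommRing C'] [Algebra R C'] [CommRing C] [Algebra R C]
variable {n : ℕ} (c' : Module.Basis (Fin n) R C') (c : Module.Basis (Fin n) R C)
variable (ev : R →+* κ) (f : C' →ₐ[R] C)

/-- Restriction of a point along an algebra hom. -/
def Pts.comap (χ : Pts C ev) : Pts C' ev :=
  ⟨χ.1.comp f.toRingHom, fun r => by simp [χ.2 r]⟩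

/-- If `f (c' j) = ∑ i, P i j • c i` then `π ^ (#pts C - #pts C') ∣ det P`. -/
theorem pow_dvd_det_of_pts (hev : Function.Surjective ev) (π : R)
    (hπ : RingHom.ker ev = Ideal.span {π}) (P : Matrix (Fin n) (Fin n) R)
    (hP : ∀ j, f (c' j) = ∑ i, P i j • c i) :
    π ^ (Nat.card (Pts C ev) - Nat.card (Pts C' ev)) ∣ P.det := by
  classical
  haveI := finite_pts c ev
  haveI := finite_pts c' ev
  haveI : Fintype (Pts C ev) := Fintype.ofFinite _
  haveI : Fintype (Pts C' ev) := Fintype.ofFinite _
  let T : (Fin n → κ) →ₗ[κ] (Fin n → κ) := Matrix.mulVecLin (Pᵀ.map ev)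
  have hT : ∀ χ : Pts C ev, T (ptVec c ev χ) = ptVec c' ev (Pts.comap ev f χ) := by
    intro χ
    funext j
    simp only [T, Matrix.mulVecLin_apply, Matrix.mulVec, dotProduct, Matrix.map_apply,
      Matrix.transpose_apply, ptVec, Pts.comap, RingHom.coe_comp, Function.comp_apply]
    have : (f.toRingHom (c' j)) = ∑ i, P i j • c i := hP j
    rw [this, pt_sum_smul]
  let VB : Submodule κ (Fin n → κ) := Submodule.span κ (Set.range (ptVec c ev))
  let V : Submodule κ (Fin n → κ) := Submodule.span κ (Set.range (ptVec c' ev))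
  have hVB : Module.finrank κ VB = Fintype.card (Pts C ev) :=
    finrank_span_eq_card (linearIndependent_ptVec c ev)
  have hV : Module.finrank κ V = Fintype.card (Pts C' ev) :=
    finrank_span_eq_card (linearIndependent_ptVec c' ev)
  let Ψ : VB →ₗ[κ] (Fin n → κ) := T.domRestrict VB
  have hrange : LinearMap.range Ψ ≤ V := by
    rintro _ ⟨w, rfl⟩
    have hw : (w : Fin n → κ) ∈ VB := w.2
    simp only [Ψ, LinearMap.domRestrict_apply]
    refine Submodule.span_induction (p := fun v _ => T v ∈ V) ?_ ?_ ?_ ?_ hw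
    · rintro _ ⟨χ, rfl⟩
      rw [hT]
      exact Submodule.subset_span ⟨_, rfl⟩
    · simp
    · intro x y _ _ hx hy
      rw [map_add]
      exact V.add_mem hx hy
    · intro a x _ hx
      rw [map_smul]
      exact V.smul_mem a hx
  have h1 := LinearMap.finrank_range_add_finrank_ker Ψ
  have h2 : Module.finrank κ (LinearMap.range Ψ) ≤ Fintype.card (Pts C' ev) :=
    hV ▸ Submodule.finrank_mono hrange
  let W : Submodule κ (Fin n → κ) := (LinearMap.ker Ψ).map VB.subtype
  have hWrank : Module.finrank κ W = Module.finrank κ (LinearMap.ker Ψ) :=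
    Submodule.finrank_map_subtype_eq VB (LinearMap.ker Ψ)
  have hW : ∀ v ∈ W, (Pᵀ.map ev) *ᵥ v = 0 := by
    rintro _ ⟨w, hw, rfl⟩
    have := LinearMap.mem_ker.mp hw
    simpa [Ψ, T] using this
  have h3 := pow_dvd_det_of_ker ev hev π hπ Pᵀ W hW
  rw [Matrix.det_transpose] at h3
  refine (pow_dvd_pow π ?_).trans h3
  rw [hWrank, Nat.card_eq_fintype_card, Nat.card_eq_fintype_card]
  omega

end Compare

end Fermat.Agent.S27GR
end MergeWrap_S27_GR_DiscChar

section MergeWrap_S27_GR_DiscLower -- from S27/GR/DiscLower.lean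

/-!
# Cluster B / GoodRed WP A1 : `discLowerBound : DiscLowerBound R Kx L` (helper59)

Proof (no different ideal needed):
* the Gram matrix `G` of the trace form on the `R`-basis `b` of `B'` reduces mod `π` to a matrix
  killed by every vector orthogonal to all points of `B'` over `ev`
  (`Fermat.Agent.S27GR.pow_dvd_det_traceMatrix`), so `π ^ (n - #pts) ∣ d`;
* for the integral closure `B ⊇ B'` with basis `β` and `b = β P`: `d = det P ^ 2 * disc β`,
  `π ^ (n - #pts B) ∣ disc β`, `π ^ (#pts B - #pts B') ∣ det P`; in the equality case `π ∤ det P`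
  and `det P • B ⊆ B'`.
-/

set_option autoImplicit false

namespace Fermat.Agent.S27GR

open Matrix

section

variable (R : Type*) [CommRing R] [IsDomain R]
variable (Kx : Type*) [Field Kx] [Algebra R Kx] [IsFractionRing R Kx]
variable (L : Type*) [Field L] [Algebra Kx L] [Algebra R L] [IsScalarTower R Kx L]

/-- Trace of a finite free subalgebra of full rank = trace of `L / Kx`. -/
theorem trace_subalgebra_eq [FiniteDimensional Kx L] (C : Subalgebra R L) {n : ℕ}
    (cB : Module.Basis (Fin n) R C) (hn : Module.finrank Kx L = n) (y : C) :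
    algebraMap R Kx (Algebra.trace R C y) = Algebra.trace Kx L (y : L) := by
  classical
  have hliR : LinearIndependent R (fun i => ((cB i : C) : L)) :=
    cB.linearIndependent.map' C.val.toLinearMap
      (LinearMap.ker_eq_bot.mpr Subtype.val_injective)
  have hliK : LinearIndependent Kx (fun i => ((cB i : C) : L)) :=
    (LinearIndependent.iff_fractionRing R Kx).mp hliR
  haveI : Nonempty (Fin n) := by
    have h0 : 0 < Module.finrank Kx L := Module.finrank_pos
    rw [hn] at h0
    exact ⟨⟨0, h0⟩⟩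
  let cL : Module.Basis (Fin n) Kx L :=
    basisOfLinearIndependentOfCardEqFinrank hliK (by simp [hn])
  have hcL : ∀ i, cL i = ((cB i : C) : L) := fun i => by
    simp [cL]
  have hrepr : ∀ (z : C) (i : Fin n), cL.repr (z : L) i = algebraMap R Kx (cB.repr z i) := by
    intro z i
    have h1 : (z : L) = ∑ j, (algebraMap R Kx (cB.repr z j)) • cL j := by
      have h2 : (z : L) = C.val (∑ j, cB.repr z j • cB j) := by rw [cB.sum_repr z]; rfl
      rw [h2, map_sum]
      refine Finset.sum_congr rfl fun j _ => ?_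
      rw [hcL, algebraMap_smul, map_smul]
      rfl
    rw [h1, cL.repr_sum_self]
  rw [Algebra.trace_eq_matrix_trace cB, Algebra.trace_eq_matrix_trace cL, Matrix.trace,
    Matrix.trace, map_sum]
  refine Finset.sum_congr rfl fun i _ => ?_
  simp only [Matrix.diag_apply, Algebra.leftMulMatrix_eq_repr_mul]
  rw [hcL, ← hrepr]
  rfl

/-- An `R`-basis of the subalgebra `B'` from the data of `DiscLowerBound`. -/
theorem exists_basis_subalgebra (B' : Subalgebra R L) {n : ℕ} (b : Fin n → L)
    (hb : ∀ i, b i ∈ B') (hli : LinearIndependent Kx b)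
    (hspan : ∀ y ∈ B', ∃ c : Fin n → R, y = ∑ i, c i • b i) :
    ∃ bB : Module.Basis (Fin n) R B', ∀ i, ((bB i : B') : L) = b i := by
  have hliR : LinearIndependent R b :=
    hli.restrict_scalars (by
      intro r s hrs
      simp only [Algebra.smul_def, mul_one] at hrs
      exact IsFractionRing.injective R Kx hrs)
  let b' : Fin n → B' := fun i => ⟨b i, hb i⟩
  have hli' : LinearIndependent R b' := by
    apply LinearIndependent.of_comp B'.val.toLinearMap
    exact hliR
  have hsp' : ⊤ ≤ Submodule.span R (Set.range b') := by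
    intro y _
    obtain ⟨c, hc⟩ := hspan y y.2
    have : y = ∑ i, c i • b' i := by
      apply Subtype.ext
      rw [hc]
      have h2 : ((∑ i, c i • b' i : B') : L) = B'.val (∑ i, c i • b' i) := rfl
      rw [h2, map_sum]
      refine Finset.sum_congr rfl fun i _ => ?_
      rw [map_smul]
      rfl
    rw [this]
    exact Submodule.sum_mem _ fun i _ =>
      Submodule.smul_mem _ _ (Submodule.subset_span ⟨i, rfl⟩)
  exact ⟨Module.Basis.mk hli' hsp', fun i => by simp [b']⟩

/-- The discriminant `d` of the data is the determinant of the trace matrix of the family,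
computed in any finite free subalgebra of full rank containing it. -/
theorem gramDet_eq_det_traceMatrix [FiniteDimensional Kx L] (B' : Subalgebra R L) {n : ℕ}
    (b : Fin n → L) (bB : Module.Basis (Fin n) R B') (x : Fin n → B')
    (hx : ∀ i, ((x i : B') : L) = b i)
    (hn : Module.finrank Kx L = n) :
    gramDet Kx L b = algebraMap R Kx (Algebra.traceMatrix R x).det := by
  rw [RingHom.map_det, gramDet]
  congr 1
  ext i j
  simp only [Matrix.of_apply, RingHom.mapMatrix_apply, Matrix.map_apply,
    Algebra.traceMatrix_apply, Algebra.traceForm_apply]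
  rw [trace_subalgebra_eq R Kx L B' bB hn]
  simp [hx]

variable [IsPrincipalIdealRing R]

/-- **WP A1, first half**: `π ^ (n - #pts)` divides the discriminant. -/
theorem pow_dvd_disc [FiniteDimensional Kx L] (n : ℕ) (B' : Subalgebra R L)
    (b : Fin n → L) (hb : ∀ i, b i ∈ B') (hint : ∀ y ∈ B', IsIntegral R y)
    (hli : LinearIndependent Kx b) (hn : Module.finrank Kx L = n)
    (hspan : ∀ y ∈ B', ∃ c : Fin n → R, y = ∑ i, c i • b i)
    (κ : Type*) [Field κ] [IsAlgClosed κ] (ev : R →+* κ) (hev : Function.Surjective ev)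
    (π : R) (hπ : RingHom.ker ev = Ideal.span {π})
    (d : R) (hd : algebraMap R Kx d = gramDet Kx L b) :
    π ^ (n - numPts R L B' ev) ∣ d := by
  obtain ⟨bB, hbB⟩ := exists_basis_subalgebra R Kx L B' b hb hli hspan
  haveI : Algebra.IsIntegral R B' :=
    ⟨fun y => (isIntegral_algHom_iff B'.val Subtype.val_injective).mp (hint y y.2)⟩
  have h1 : d = (Algebra.traceMatrix R bB).det := by
    apply IsFractionRing.injective R Kx
    rw [hd, gramDet_eq_det_traceMatrix R Kx L B' b bB (fun i => bB i) hbB hn]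
  rw [h1]
  exact pow_dvd_det_traceMatrix (c := bB) hev π hπ

/-- **WP A1, second half**: in the equality case `B'` is integrally closed at `π`. -/
theorem exists_smul_mem_of_eq [FiniteDimensional Kx L] [Algebra.IsSeparable Kx L] (n : ℕ)
    (B' : Subalgebra R L)
    (b : Fin n → L) (hb : ∀ i, b i ∈ B') (hint : ∀ y ∈ B', IsIntegral R y)
    (hli : LinearIndependent Kx b) (hn : Module.finrank Kx L = n)
    (hspan : ∀ y ∈ B', ∃ c : Fin n → R, y = ∑ i, c i • b i)
    (κ : Type*) [Field κ] [IsAlgClosed κ] (ev : R →+* κ) (hev : Function.Surjective ev)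
    (π : R) (hπ : RingHom.ker ev = Ideal.span {π})
    (d : R) (hd : algebraMap R Kx d = gramDet Kx L b) (m : ℕ) (hm : ¬ π ^ (m + 1) ∣ d)
    (heq : m + numPts R L B' ev = n) :
    ∃ s : R, ev s ≠ 0 ∧ ∀ y : L, IsIntegral R y → s • y ∈ B' := by
  classical
  obtain ⟨bB, hbB⟩ := exists_basis_subalgebra R Kx L B' b hb hli hspan
  -- the integral closure and its basis
  let B : Subalgebra R L := integralClosure R L
  haveI : Module.IsTorsionFree R L := .trans_faithfulSMul R Kx L
  haveI : Module.Free R B := IsIntegralClosure.module_free R Kx L B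
  haveI : Module.Finite R B := IsIntegralClosure.finite R Kx L B
  have hrank : Module.finrank R B = n := by
    rw [IsIntegralClosure.rank R Kx L B, hn]
  let βB : Module.Basis (Fin n) R B := Module.finBasisOfFinrankEq R B hrank
  have hle : B' ≤ B := fun y hy => hint y hy
  let ι : B' →ₐ[R] B := Subalgebra.inclusion hle
  let x : Fin n → B := fun j => ι (bB j)
  have hxb : ∀ j, ((x j : B) : L) = b j := fun j => by
    rw [← hbB j]
    rfl
  let P : Matrix (Fin n) (Fin n) R := Matrix.of fun i j => βB.repr (x j) i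
  have hP : ∀ j, ι (bB j) = ∑ i, P i j • βB i := fun j => (βB.sum_repr (x j)).symm
  have hx : x = (βB : Fin n → B) ᵥ* P.map (algebraMap R B) := by
    funext j
    rw [show x j = ι (bB j) from rfl, hP j]
    simp only [Matrix.vecMul, dotProduct, Matrix.map_apply]
    refine Finset.sum_congr rfl fun i _ => ?_
    rw [Algebra.smul_def, mul_comm]
  have hdisc : Algebra.discr R x = P.det ^ 2 * Algebra.discr R βB := by
    rw [hx, Algebra.discr_of_matrix_vecMul]
  have hd' : d = P.det ^ 2 * (Algebra.traceMatrix R βB).det := by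
    rw [← Algebra.discr_def, ← hdisc, Algebra.discr_def]
    apply IsFractionRing.injective R Kx
    rw [hd, gramDet_eq_det_traceMatrix R Kx L B b βB x hxb hn]
  have h1 : π ^ (n - Nat.card (Pts B ev)) ∣ (Algebra.traceMatrix R βB).det :=
    pow_dvd_det_traceMatrix (c := βB) hev π hπ
  have h2 : π ^ (Nat.card (Pts B ev) - Nat.card (Pts B' ev)) ∣ P.det :=
    pow_dvd_det_of_pts bB βB ev ι hev π hπ P hP
  have hN' : numPts R L B' ev = Nat.card (Pts B' ev) := rfl
  rw [hN'] at heq
  have hs : ev P.det ≠ 0 := by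
    intro h0
    have h3 : π ∣ P.det := by
      have : P.det ∈ RingHom.ker ev := h0
      rw [hπ] at this
      exact Ideal.mem_span_singleton.mp this
    apply hm
    rw [hd']
    by_cases ha : Nat.card (Pts B ev) - Nat.card (Pts B' ev) = 0
    · have h4 : π ^ (2 + (n - Nat.card (Pts B ev))) ∣ P.det ^ 2 * (Algebra.traceMatrix R βB).det := by
        rw [pow_add]
        exact mul_dvd_mul (pow_dvd_pow_of_dvd h3 2) h1
      refine (pow_dvd_pow π ?_).trans h4
      omega
    · have h4 : π ^ (2 * (Nat.card (Pts B ev) - Nat.card (Pts B' ev)) + (n - Nat.card (Pts B ev)))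
          ∣ P.det ^ 2 * (Algebra.traceMatrix R βB).det := by
        rw [pow_add, mul_comm 2, pow_mul]
        exact mul_dvd_mul (pow_dvd_pow_of_dvd h2 2) h1
      refine (pow_dvd_pow π ?_).trans h4
      omega
  refine ⟨P.det, hs, fun y hy => ?_⟩
  -- Cramer
  have hcr : ∀ i, P.det • βB i = ∑ j, (Matrix.adjugate P) j i • x j := by
    intro i
    have h5 : ∀ j, x j = ∑ k, P k j • βB k := hP
    calc P.det • βB i = ∑ k, (P * Matrix.adjugate P) k i • βB k := by
          rw [Matrix.mul_adjugate]
          simp [Matrix.smul_apply, Matrix.one_apply, ite_smul, Finset.sum_ite_eq']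
      _ = ∑ k, ∑ j, (P k j * Matrix.adjugate P j i) • βB k := by
          refine Finset.sum_congr rfl fun k _ => ?_
          rw [Matrix.mul_apply, Finset.sum_smul]
      _ = ∑ j, ∑ k, (P k j * Matrix.adjugate P j i) • βB k := Finset.sum_comm
      _ = ∑ j, (Matrix.adjugate P) j i • x j := by
          refine Finset.sum_congr rfl fun j _ => ?_
          rw [h5 j, Finset.smul_sum]
          refine Finset.sum_congr rfl fun k _ => ?_
          rw [smul_smul, mul_comm]
  have hmem : ∀ i, P.det • ((βB i : B) : L) ∈ B' := by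
    intro i
    have h6 : P.det • ((βB i : B) : L) = B.val (P.det • βB i) := by
      rw [map_smul]; rfl
    rw [h6, hcr i, map_sum]
    refine B'.sum_mem fun j _ => ?_
    rw [map_smul]
    have : B.val (x j) = b j := hxb j
    rw [this]
    exact B'.smul_mem (hb j) _
  let yB : B := ⟨y, hy⟩
  have hy1 : y = B.val (∑ i, βB.repr yB i • βB i) := by
    rw [βB.sum_repr yB]; rfl
  rw [hy1, map_sum, Finset.smul_sum]
  refine B'.sum_mem fun i _ => ?_
  rw [map_smul, smul_comm]
  exact B'.smul_mem (hmem i) _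

/-- **WP A1** (cluster B / GoodRed, helper37's blueprint). -/
theorem discLowerBound : DiscLowerBound R Kx L := by
  intro _ _ n B' b hb hint hli hn hspan κ _ _ ev hev π hπ d m hd hm hm'
  have h1 := pow_dvd_disc R Kx L n B' b hb hint hli hn hspan κ ev hev π hπ d hd
  have h2 : n - numPts R L B' ev ≤ m := by
    by_contra hlt
    rw [not_le] at hlt
    exact hm' ((pow_dvd_pow π hlt).trans h1)
  refine ⟨by omega, fun heq y hy => ?_⟩
  obtain ⟨s, hs, hsy⟩ := exists_smul_mem_of_eq R Kx L n B' b hb hint hli hn hspan κ ev hev π hπ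
    d hd m hm' heq
  exact ⟨s, hs, hsy y hy⟩

end

end Fermat.Agent.S27GR
end MergeWrap_S27_GR_DiscLower

section MergeWrap_S27_GR_EvalAt -- from S27/GR/EvalAt.lean

/-!
# Cluster B / GoodRed: evaluation `K[x] → K` at `x = c` (helper57; architect helper37)

`evalAt hx c : K[x] → K` for a transcendental `x`, its kernel `(x - c)`, the maximal ideals of
`K[x]` for algebraically closed `K`, and the comparison of `numPts` (points of a `K[x]`-subalgebra
over `ev`) with the `K`-algebra homomorphisms sending `x` to `c` (`fibreCard`).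
-/

set_option autoImplicit false

namespace Fermat.Agent.S27GR

open Polynomial IntermediateField
open scoped IntermediateField.algebraAdjoinAdjoin

noncomputable section

variable {K F : Type*} [Field K] [Field F] [Algebra K F] {x : F}

/-- evaluation at `x = c`. -/
def evalAt (hx : Transcendental K x) (c : K) : Algebra.adjoin K {x} →ₐ[K] K :=
  (Polynomial.aeval c).comp (Polynomial.algEquivOfTranscendental K x hx).symm.toAlgHom

theorem evalAt_apply (hx : Transcendental K x) (c : K) (y : Algebra.adjoin K {x}) :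
    evalAt hx c y = ((Polynomial.algEquivOfTranscendental K x hx).symm y).eval c := by
  simp only [evalAt, AlgHom.comp_apply, coe_aeval_eq_eval]
  rfl

theorem evalAt_equiv (hx : Transcendental K x) (c : K) (p : K[X]) :
    evalAt hx c (Polynomial.algEquivOfTranscendental K x hx p) = p.eval c := by
  rw [evalAt_apply, AlgEquiv.symm_apply_apply]

theorem equiv_X_sub_C (hx : Transcendental K x) (c : K) :
    Polynomial.algEquivOfTranscendental K x hx (X - C c) = piAt K x c := by
  rw [map_sub, algEquivOfTranscendental_apply_X]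
  have : Polynomial.algEquivOfTranscendental K x hx (C c) =
      algebraMap K (Algebra.adjoin K {x}) c := by
    rw [← Polynomial.algebraMap_eq, AlgEquiv.commutes]
  rw [this]
  rfl

theorem evalAt_genAdj (hx : Transcendental K x) (c : K) : evalAt hx c (genAdj x) = c := by
  have h : genAdj x = Polynomial.algEquivOfTranscendental K x hx X := by
    rw [algEquivOfTranscendental_apply_X]
    rfl
  rw [h, evalAt_equiv, eval_X]

theorem isEvalAt_evalAt (hx : Transcendental K x) (c : K) :
    IsEvalAt x c (evalAt hx c).toRingHom :=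
  ⟨evalAt_genAdj hx c, fun a => (evalAt hx c).commutes a⟩

theorem evalAt_surjective (hx : Transcendental K x) (c : K) :
    Function.Surjective (evalAt hx c) :=
  fun a => ⟨algebraMap K _ a, (evalAt hx c).commutes a⟩

theorem ker_evalAt (hx : Transcendental K x) (c : K) :
    RingHom.ker (evalAt hx c).toRingHom = Ideal.span {piAt K x c} := by
  ext y
  rw [RingHom.mem_ker, Ideal.mem_span_singleton]
  obtain ⟨p, rfl⟩ := (Polynomial.algEquivOfTranscendental K x hx).surjective y
  rw [← equiv_X_sub_C hx c]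
  show evalAt hx c _ = 0 ↔ _
  rw [evalAt_equiv, map_dvd_iff, dvd_iff_isRoot]
  rfl

theorem prime_piAt (hx : Transcendental K x) (c : K) : Prime (piAt K x c) := by
  rw [← equiv_X_sub_C hx c]
  exact (MulEquiv.prime_iff (Polynomial.algEquivOfTranscendental K x hx).toMulEquiv).mpr
    (prime_X_sub_C c)

theorem exists_piAt_of_isMaximal [IsAlgClosed K] (hx : Transcendental K x)
    (I : Ideal (Algebra.adjoin K {x})) (hI : I.IsMaximal) :
    ∃ c : K, I = Ideal.span {piAt K x c} := by
  set e := Polynomial.algEquivOfTranscendental K x hx with he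
  -- the pulled back ideal of `K[X]`
  have hJ : (Ideal.comap e.toRingEquiv I).IsMaximal := Ideal.comap_isMaximal_of_equiv e.toRingEquiv
  obtain ⟨p, hp⟩ := (IsPrincipalIdealRing.principal (Ideal.comap e.toRingEquiv I)).principal
  have hp' : Ideal.comap e.toRingEquiv I = Ideal.span {p} := hp
  have hp0 : p ≠ 0 := by
    rintro rfl
    rw [Ideal.span_singleton_zero] at hp'
    rw [hp'] at hJ
    exact Polynomial.not_isField K (Ring.isField_iff_maximal_bot.mpr hJ)
  have hpu : ¬ IsUnit p := by
    intro hu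
    apply hJ.ne_top
    rw [hp']
    exact Ideal.span_singleton_eq_top.mpr hu
  have hdeg : p.degree ≠ 0 := by
    intro h0
    apply hpu
    rw [Polynomial.eq_C_of_degree_eq_zero h0]
    refine Polynomial.isUnit_C.mpr (IsUnit.mk0 _ ?_)
    intro hc
    apply hp0
    rw [Polynomial.eq_C_of_degree_eq_zero h0, hc, map_zero]
  obtain ⟨c, hc⟩ := IsAlgClosed.exists_root p hdeg
  refine ⟨c, ?_⟩
  have hle : I ≤ Ideal.span {piAt K x c} := by
    intro y hy
    obtain ⟨q, rfl⟩ := e.surjective y
    have hq : q ∈ Ideal.comap e.toRingEquiv I := hy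
    rw [hp', Ideal.mem_span_singleton] at hq
    rw [Ideal.mem_span_singleton, ← equiv_X_sub_C hx c, map_dvd_iff]
    exact (dvd_iff_isRoot.mpr hc).trans hq
  have hne : Ideal.span {piAt K x c} ≠ (⊤ : Ideal (Algebra.adjoin K {x})) := by
    rw [Ne, Ideal.span_singleton_eq_top]
    exact (prime_piAt hx c).not_isUnit
  exact hI.eq_of_le hne hle

/-- a `K`-subalgebra containing `x`, viewed over `K[x]` -/
def overAdjoin (B : Subalgebra K F) (hxB : x ∈ B) : Subalgebra (Algebra.adjoin K {x}) F where
  carrier := B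
  mul_mem' := B.mul_mem
  add_mem' := B.add_mem
  algebraMap_mem' := fun r => (Algebra.adjoin_le (Set.singleton_subset_iff.mpr hxB)) r.2

theorem mem_overAdjoin (B : Subalgebra K F) (hxB : x ∈ B) {y : F} :
    y ∈ overAdjoin B hxB ↔ y ∈ B := Iff.rfl

/-- a `K`-algebra homomorphism `B → K` with `x ↦ c` restricts to `evalAt` on `K[x]`. -/
theorem algHom_eq_evalAt (hx : Transcendental K x) (B : Subalgebra K F) (hxB : x ∈ B) (c : K)
    (ψ : B →ₐ[K] K) (hψ : ψ ⟨x, hxB⟩ = c) (r : Algebra.adjoin K {x}) :
    ψ ⟨(r : F), (Algebra.adjoin_le (Set.singleton_subset_iff.mpr hxB)) r.2⟩ = evalAt hx c r := by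
  have hle : Algebra.adjoin K {x} ≤ B := Algebra.adjoin_le (Set.singleton_subset_iff.mpr hxB)
  obtain ⟨p, rfl⟩ := (Polynomial.algEquivOfTranscendental K x hx).surjective r
  rw [evalAt_equiv]
  have h1 : (ψ.comp (Subalgebra.inclusion hle))
      (Polynomial.algEquivOfTranscendental K x hx p) = p.eval c := by
    rw [algEquivOfTranscendental_apply, ← Polynomial.aeval_algHom_apply, AlgHom.comp_apply]
    have : (Subalgebra.inclusion hle) ⟨x, Algebra.self_mem_adjoin_singleton K x⟩ = ⟨x, hxB⟩ := rfl
    rw [this, hψ, coe_aeval_eq_eval]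
  exact h1

theorem numPts_overAdjoin (hx : Transcendental K x) (B : Subalgebra K F) (hxB : x ∈ B) (c : K) :
    numPts (Algebra.adjoin K {x}) F (overAdjoin B hxB) (evalAt hx c).toRingHom
      = Nat.card {χ : B →ₐ[K] K // χ ⟨x, hxB⟩ = c} := by
  unfold numPts
  refine Nat.card_congr ?_
  refine
    { toFun := fun χ => ⟨
        { toFun := fun y => χ.1 ⟨(y : F), y.2⟩
          map_one' := χ.1.map_one
          map_mul' := fun y z => χ.1.map_mul ⟨(y : F), y.2⟩ ⟨(z : F), z.2⟩
          map_zero' := χ.1.map_zero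
          map_add' := fun y z => χ.1.map_add ⟨(y : F), y.2⟩ ⟨(z : F), z.2⟩
          commutes' := fun a => by
            have h := χ.2 (algebraMap K (Algebra.adjoin K {x}) a)
            exact h.trans ((evalAt hx c).commutes a) },
        (χ.2 (genAdj x)).trans (evalAt_genAdj hx c)⟩
      invFun := fun ψ => ⟨
        { toFun := fun y => ψ.1 ⟨(y : F), y.2⟩
          map_one' := ψ.1.map_one
          map_mul' := fun y z => ψ.1.map_mul ⟨(y : F), y.2⟩ ⟨(z : F), z.2⟩
          map_zero' := ψ.1.map_zero
          map_add' := fun y z => ψ.1.map_add ⟨(y : F), y.2⟩ ⟨(z : F), z.2⟩ },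
        fun r => algHom_eq_evalAt hx B hxB c ψ.1 ψ.2 r⟩
      left_inv := fun χ => by
        apply Subtype.ext
        ext y
        rfl
      right_inv := fun ψ => by
        apply Subtype.ext
        ext y
        rfl }

theorem overAdjoin_intCl (hxB : x ∈ intCl K x) :
    overAdjoin (intCl K x) hxB = integralClosure (Algebra.adjoin K {x}) F :=
  SetLike.ext fun _ => Iff.rfl

theorem numPts_integralClosure_eq_fibreCard (hx : Transcendental K x) (c : K) :
    numPts (Algebra.adjoin K {x}) F (integralClosure (Algebra.adjoin K {x}) F)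
        (evalAt hx c).toRingHom
      = fibreCard K x c := by
  have hxB : x ∈ intCl K x := by
    have h : (algebraMap (Algebra.adjoin K {x}) F) (genAdj x) ∈
        integralClosure (Algebra.adjoin K {x}) F := Subalgebra.algebraMap_mem _ _
    exact h
  rw [← overAdjoin_intCl hxB, numPts_overAdjoin hx (intCl K x) hxB c]
  unfold fibreCard
  refine Nat.card_congr (Equiv.subtypeEquivRight fun χ => ?_)
  exact ⟨fun h _ => h, fun h => h hxB⟩

end

end Fermat.Agent.S27GR
end MergeWrap_S27_GR_EvalAt

section MergeWrap_S27_GR_Chain -- from S27/GR/Chain.lean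

/-!
# Cluster B / GoodRed WP C : the discriminant chain (helper37)

`discChain_of_steps`: DEGREE + BRANCH + (L) `LiftStep` + (P) `PointsStep` + (ALG-1) imply
(NORM) `NormalReduction M` and (FIB) `FibreBound M`.

Proof.  For `c̄ ∈ k` let `m = ord_{c̄} d̄` where `d̄` is the Gram determinant of the basis `b̄` of
`B̄` given by (L).  (ALG-1): `n ≤ m + #pts(B̄, c̄)`.  If a branch value `c ∈ S` reduces to `c̄`,
(L) gives `m + #fibre(c) ≤ n` and (P) gives `#pts(B̄, c̄) ≤ #fibre(c)`; otherwise (L) gives `m = 0`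
and (P), BRANCH give `#pts(B̄, c̄) ≤ #fibre(c) = n` for any lift `c`.  In both cases
`m + #pts(B̄, c̄) = n`, so by (ALG-1) `B̄` is integrally closed at `c̄`.  As `k` is algebraically
closed, every maximal ideal of `k[x̄]` is of the form `(x̄ - c̄)`, so `B̄` is integrally closed.
-/

set_option autoImplicit false

namespace Fermat.Agent.S27GR

open Polynomial IntermediateField
open scoped IntermediateField.algebraAdjoinAdjoin

noncomputable section

variable {K k F Fk : Type*} [Field K] [Field k] [Field F] [Field Fk] [Algebra K F] [Algebra k Fk]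

namespace RedModel

variable (M : RedModel K k F Fk)

/-- `B̄` as a subalgebra over `k[x̄]`. -/
def BbarR : Subalgebra (Algebra.adjoin k {M.xbar}) Fk := overAdjoin M.Bbar M.xbar_mem_Bbar

theorem mem_BbarR {y : Fk} : y ∈ M.BbarR ↔ y ∈ M.Bbar := Iff.rfl

end RedModel

/-- Elements of a subalgebra spanned by finitely many elements are integral. -/
theorem chain_isIntegral_of_span {R L : Type*} [CommRing R] [Field L] [Algebra R L]
    (B' : Subalgebra R L) {n : ℕ} (b : Fin n → L) (hb : ∀ i, b i ∈ B')
    (hspan : ∀ y ∈ B', ∃ c : Fin n → R, y = ∑ i, c i • b i) :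
    ∀ y ∈ B', IsIntegral R y := by
  classical
  intro y hy
  have hfg : (Subalgebra.toSubmodule B').FG := by
    refine ⟨Finset.univ.image b, le_antisymm ?_ ?_⟩
    · rw [Submodule.span_le]
      intro z hz
      simp only [Finset.coe_image, Finset.coe_univ, Set.image_univ, Set.mem_range] at hz
      obtain ⟨i, rfl⟩ := hz
      exact hb i
    · intro z hz
      obtain ⟨c, rfl⟩ := hspan z hz
      refine Submodule.sum_mem _ fun i _ => Submodule.smul_mem _ _ (Submodule.subset_span ?_)
      simp
  exact IsIntegral.of_mem_of_fg B' hfg y hy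

/-- local step of the chain: at every `c̄` the ring `B̄` is integrally closed. -/
theorem chain_local [IsAlgClosed k] (M : RedModel K k F Fk) (n : ℕ)
    (hdeg : DegData M n) (BD : BranchData M n)
    (hL : LiftStep M n BD) (hP : PointsStep M) (cbar : k) (y : Fk)
    (hy : IsIntegral (Algebra.adjoin k {M.xbar}) y) :
    ∃ s : Algebra.adjoin k {M.xbar}, evalAt M.x_trans cbar s ≠ 0 ∧ s • y ∈ M.BbarR := by
  classical
  obtain ⟨bbar, hbasis, dbar, hd, hd0, hbound⟩ := hL
  have hxk : Transcendental k M.xbar := M.x_trans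
  have : IsPrincipalIdealRing (Algebra.adjoin k {M.xbar}) := lb_isPrincipalIdealRing_adjoin hxk
  have : FiniteDimensional k⟮M.xbar⟯ Fk :=
    Module.finite_of_finrank_pos (by rw [hdeg.degk]; exact hdeg.pos)
  have := hdeg.sepk
  have hmem : ∀ i, bbar i ∈ M.BbarR := hbasis.mem
  have hspan : ∀ y ∈ M.BbarR, ∃ c : Fin n → Algebra.adjoin k {M.xbar}, y = ∑ i, c i • bbar i :=
    hbasis.span
  have hint := chain_isIntegral_of_span M.BbarR bbar hmem hspan
  -- the multiplicity
  have hprime : Prime (piAt k M.xbar cbar) := prime_piAt hxk cbar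
  have hfin : FiniteMultiplicity (piAt k M.xbar cbar) dbar :=
    FiniteMultiplicity.of_prime_left hprime hd0
  set m := multiplicity (piAt k M.xbar cbar) dbar with hm
  have hpow : piAt k M.xbar cbar ^ m ∣ dbar := pow_multiplicity_dvd _ _
  have hnpow : ¬ piAt k M.xbar cbar ^ (m + 1) ∣ dbar :=
    hfin.not_pow_dvd_of_multiplicity_lt (Nat.lt_succ_self _)
  obtain ⟨h1, h2⟩ := discLowerBound (Algebra.adjoin k {M.xbar}) k⟮M.xbar⟯ Fk n M.BbarR bbar hmem
    hint hbasis.indep hdeg.degk hspan k (evalAt hxk cbar).toRingHom (evalAt_surjective hxk cbar)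
    (piAt k M.xbar cbar) (ker_evalAt hxk cbar) dbar m hd hpow hnpow
  have hnum : numPts (Algebra.adjoin k {M.xbar}) Fk M.BbarR (evalAt hxk cbar).toRingHom =
      numPtsBbar M cbar := numPts_overAdjoin hxk M.Bbar M.xbar_mem_Bbar cbar
  rw [hnum] at h1 h2
  refine h2 ?_ y hy
  by_cases hS : ∃ c ∈ BD.S, ∃ hc : c ∈ M.A, M.res ⟨c, hc⟩ = cbar
  · obtain ⟨c, hcS, hc, hres⟩ := hS
    subst hres
    have hb1 := (hbound c hc m hpow).1 hcS
    have hb2 := hP c hc
    omega
  · obtain ⟨a, ha⟩ := M.res_surj cbar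
    subst ha
    have hm0 : m = 0 := (hbound a.1 a.2 m hpow).2 (fun c' hc'S hc' hres => hS ⟨c', hc'S, hc', hres⟩)
    have hnS : (a : K) ∉ BD.S := fun haS => hS ⟨a.1, haS, a.2, rfl⟩
    have hb2 : numPtsBbar M (M.res a) ≤ fibreCard K M.x a := hP a.1 a.2
    rw [BD.unram _ hnS] at hb2
    omega

/-- (NORM) from the chain, in subalgebra form: `intCl k x̄ ≤ B̄`. -/
theorem chain_intCl_le_Bbar [IsAlgClosed k] (M : RedModel K k F Fk) (n : ℕ)
    (hdeg : DegData M n) (BD : BranchData M n)
    (hL : LiftStep M n BD) (hP : PointsStep M) : intCl k M.xbar ≤ M.Bbar := by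
  intro y hy
  have hy' : IsIntegral (Algebra.adjoin k {M.xbar}) y := hy
  have hxk : Transcendental k M.xbar := M.x_trans
  -- the conductor ideal of `y`
  let I : Ideal (Algebra.adjoin k {M.xbar}) :=
    (Subalgebra.toSubmodule M.BbarR).colon {y}
  have hI : ∀ s : Algebra.adjoin k {M.xbar}, s ∈ I ↔ s • y ∈ M.BbarR := fun s =>
    Submodule.mem_colon_singleton
  have htop : I = ⊤ := by
    by_contra hne
    obtain ⟨𝔪, h𝔪, hle⟩ := Ideal.exists_le_maximal I hne
    obtain ⟨cbar, rfl⟩ := exists_piAt_of_isMaximal hxk 𝔪 h𝔪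
    obtain ⟨s, hs, hsy⟩ := chain_local M n hdeg BD hL hP cbar y hy'
    have hsI : s ∈ I := (hI s).mpr hsy
    have := hle hsI
    rw [← ker_evalAt hxk cbar, RingHom.mem_ker] at this
    exact hs this
  have h1 : (1 : Algebra.adjoin k {M.xbar}) ∈ I := by rw [htop]; trivial
  have := (hI 1).mp h1
  rwa [one_smul] at this

/-- `B̄ ≤ intCl k x̄` (needs only that `B̄` is a finite `k[x̄]`-module). -/
theorem chain_Bbar_le_intCl (M : RedModel K k F Fk) (n : ℕ) (bbar : Fin n → Fk)
    (hbasis : IsBbarBasis M n bbar) : M.Bbar ≤ intCl k M.xbar := by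
  intro y hy
  exact chain_isIntegral_of_span M.BbarR bbar hbasis.mem hbasis.span y hy

theorem chain_Bbar_eq_intCl [IsAlgClosed k] (M : RedModel K k F Fk) (n : ℕ)
    (hdeg : DegData M n) (BD : BranchData M n)
    (hL : LiftStep M n BD) (hP : PointsStep M) : M.Bbar = intCl k M.xbar := by
  obtain ⟨bbar, hbasis, -⟩ := id hL
  exact le_antisymm (chain_Bbar_le_intCl M n bbar hbasis)
    (chain_intCl_le_Bbar M n hdeg BD hL hP)

/-- transport of the point count along an equality of subalgebras -/
theorem chain_card_eq {B₁ B₂ : Subalgebra k Fk} (h : B₁ = B₂) (x : Fk) (h₁ : x ∈ B₁) (cbar : k) :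
    Nat.card {χ : B₁ →ₐ[k] k // χ ⟨x, h₁⟩ = cbar} =
      Nat.card {χ : B₂ →ₐ[k] k // ∀ h₂ : x ∈ B₂, χ ⟨x, h₂⟩ = cbar} := by
  subst h
  refine Nat.card_congr (Equiv.subtypeEquivRight fun χ => ?_)
  exact ⟨fun h _ => h, fun h => h h₁⟩

/-- **The discriminant chain** (finite part): (L) + (P) (+ ALG-1) imply (NORM) and (FIB). -/
theorem discChain_of_steps [IsAlgClosed k] (M : RedModel K k F Fk) (n : ℕ)
    (hdeg : DegData M n) (BD : BranchData M n)
    (hL : LiftStep M n BD) (hP : PointsStep M) :
    NormalReduction M ∧ FibreBound M := by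
  have heq := chain_Bbar_eq_intCl M n hdeg BD hL hP
  refine ⟨fun y hy => ?_, fun c hc => ?_⟩
  · have : y ∈ M.Bbar := heq ▸ hy
    exact this
  · have h := hP c hc
    unfold numPtsBbar at h
    rw [chain_card_eq heq M.xbar M.xbar_mem_Bbar] at h
    exact h

end

end Fermat.Agent.S27GR
end MergeWrap_S27_GR_Chain

section MergeWrap_S27_GR_ChainA -- from S27/GR/ChainA.lean

/-!
# Cluster B / GoodRed WP C for WEAK branch data, with EQUALITY of fibre cardinalities (helper37)

`discChainA_of_steps`: DEGREE + weak BRANCH + (L) `LiftStepA` + (P) `PointsStep` imply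
(NORM) `NormalReduction M`, (FIB) `FibreBound M` and (FIB=) `FibreEq M n BD`.
-/

set_option autoImplicit false

namespace Fermat.Agent.S27GR

open Polynomial IntermediateField
open scoped IntermediateField.algebraAdjoinAdjoin

noncomputable section

variable {K k F Fk : Type*} [Field K] [Field k] [Field F] [Field Fk] [Algebra K F] [Algebra k Fk]

/-- local step of the chain (weak branch data): at `c̄ = res c`, if `c ∈ S` or no branch value
reduces to `c̄`, then `m + #pts(B̄, c̄) = n` for `m = ord_{c̄} d̄`, `#pts(B̄, c̄) = #fibre(c)`,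
and `B̄` is integrally closed at `c̄`. -/
theorem chainA_local_at [IsAlgClosed k] (M : RedModel K k F Fk) (n : ℕ)
    (hdeg : DegData M n) (BD : BranchDataA M n)
    (hL : LiftStepA M n BD) (hP : PointsStep M) (c : K) (hc : c ∈ M.A)
    (hcS : c ∈ BD.S ∨ ∀ c' ∈ BD.S, ∀ hc' : c' ∈ M.A, M.res ⟨c', hc'⟩ ≠ M.res ⟨c, hc⟩) :
    numPtsBbar M (M.res ⟨c, hc⟩) = fibreCard K M.x c ∧
    ∀ y : Fk, IsIntegral (Algebra.adjoin k {M.xbar}) y →
      ∃ s : Algebra.adjoin k {M.xbar}, evalAt M.x_trans (M.res ⟨c, hc⟩) s ≠ 0 ∧ s • y ∈ M.BbarR := by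
  classical
  obtain ⟨bbar, hbasis, dbar, hd, hd0, hbound⟩ := hL
  have hxk : Transcendental k M.xbar := M.x_trans
  have : IsPrincipalIdealRing (Algebra.adjoin k {M.xbar}) := lb_isPrincipalIdealRing_adjoin hxk
  have : FiniteDimensional k⟮M.xbar⟯ Fk :=
    Module.finite_of_finrank_pos (by rw [hdeg.degk]; exact hdeg.pos)
  have := hdeg.sepk
  have hmem : ∀ i, bbar i ∈ M.BbarR := hbasis.mem
  have hspan : ∀ y ∈ M.BbarR, ∃ c : Fin n → Algebra.adjoin k {M.xbar}, y = ∑ i, c i • bbar i :=
    hbasis.span
  have hint := chain_isIntegral_of_span M.BbarR bbar hmem hspan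
  set cbar := M.res ⟨c, hc⟩ with hcbar
  have hprime : Prime (piAt k M.xbar cbar) := prime_piAt hxk cbar
  have hfin : FiniteMultiplicity (piAt k M.xbar cbar) dbar :=
    FiniteMultiplicity.of_prime_left hprime hd0
  set m := multiplicity (piAt k M.xbar cbar) dbar with hm
  have hpow : piAt k M.xbar cbar ^ m ∣ dbar := pow_multiplicity_dvd _ _
  have hnpow : ¬ piAt k M.xbar cbar ^ (m + 1) ∣ dbar :=
    hfin.not_pow_dvd_of_multiplicity_lt (Nat.lt_succ_self _)
  obtain ⟨h1, h2⟩ := discLowerBound (Algebra.adjoin k {M.xbar}) k⟮M.xbar⟯ Fk n M.BbarR bbar hmem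
    hint hbasis.indep hdeg.degk hspan k (evalAt hxk cbar).toRingHom (evalAt_surjective hxk cbar)
    (piAt k M.xbar cbar) (ker_evalAt hxk cbar) dbar m hd hpow hnpow
  have hnum : numPts (Algebra.adjoin k {M.xbar}) Fk M.BbarR (evalAt hxk cbar).toRingHom =
      numPtsBbar M cbar := numPts_overAdjoin hxk M.Bbar M.xbar_mem_Bbar cbar
  rw [hnum] at h1 h2
  have hb2 : numPtsBbar M cbar ≤ fibreCard K M.x c := hP c hc
  have hb1 : m + fibreCard K M.x c ≤ n := by
    rcases hcS with hcS | hcS
    · exact (hbound c hc m hpow).1 hcS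
    · have hm0 : m = 0 := (hbound c hc m hpow).2 hcS
      have hnS : c ∉ BD.S := fun h => hcS c h hc rfl
      rw [BD.unram c hc hnS]
      omega
  exact ⟨by omega, h2 (by omega)⟩

/-- local step of the chain (weak branch data): at every `c̄` the ring `B̄` is integrally
closed. -/
theorem chainA_local [IsAlgClosed k] (M : RedModel K k F Fk) (n : ℕ)
    (hdeg : DegData M n) (BD : BranchDataA M n)
    (hL : LiftStepA M n BD) (hP : PointsStep M) (cbar : k) (y : Fk)
    (hy : IsIntegral (Algebra.adjoin k {M.xbar}) y) :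
    ∃ s : Algebra.adjoin k {M.xbar}, evalAt M.x_trans cbar s ≠ 0 ∧ s • y ∈ M.BbarR := by
  classical
  by_cases hS : ∃ c ∈ BD.S, ∃ hc : c ∈ M.A, M.res ⟨c, hc⟩ = cbar
  · obtain ⟨c, hcS, hc, hres⟩ := hS
    subst hres
    exact (chainA_local_at M n hdeg BD hL hP c hc (Or.inl hcS)).2 y hy
  · obtain ⟨a, ha⟩ := M.res_surj cbar
    subst ha
    exact (chainA_local_at M n hdeg BD hL hP a.1 a.2
      (Or.inr fun c' hc'S hc' hres => hS ⟨c', hc'S, hc', hres⟩)).2 y hy

/-- (NORM) from the chain, in subalgebra form: `intCl k x̄ ≤ B̄`. -/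
theorem chainA_intCl_le_Bbar [IsAlgClosed k] (M : RedModel K k F Fk) (n : ℕ)
    (hdeg : DegData M n) (BD : BranchDataA M n)
    (hL : LiftStepA M n BD) (hP : PointsStep M) : intCl k M.xbar ≤ M.Bbar := by
  intro y hy
  have hy' : IsIntegral (Algebra.adjoin k {M.xbar}) y := hy
  have hxk : Transcendental k M.xbar := M.x_trans
  let I : Ideal (Algebra.adjoin k {M.xbar}) :=
    (Subalgebra.toSubmodule M.BbarR).colon {y}
  have hI : ∀ s : Algebra.adjoin k {M.xbar}, s ∈ I ↔ s • y ∈ M.BbarR := fun s =>
    Submodule.mem_colon_singleton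
  have htop : I = ⊤ := by
    by_contra hne
    obtain ⟨𝔪, h𝔪, hle⟩ := Ideal.exists_le_maximal I hne
    obtain ⟨cbar, rfl⟩ := exists_piAt_of_isMaximal hxk 𝔪 h𝔪
    obtain ⟨s, hs, hsy⟩ := chainA_local M n hdeg BD hL hP cbar y hy'
    have hsI : s ∈ I := (hI s).mpr hsy
    have := hle hsI
    rw [← ker_evalAt hxk cbar, RingHom.mem_ker] at this
    exact hs this
  have h1 : (1 : Algebra.adjoin k {M.xbar}) ∈ I := by rw [htop]; trivial
  have := (hI 1).mp h1
  rwa [one_smul] at this

theorem chainA_Bbar_eq_intCl [IsAlgClosed k] (M : RedModel K k F Fk) (n : ℕ)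
    (hdeg : DegData M n) (BD : BranchDataA M n)
    (hL : LiftStepA M n BD) (hP : PointsStep M) : M.Bbar = intCl k M.xbar := by
  obtain ⟨bbar, hbasis, -⟩ := id hL
  exact le_antisymm (chain_Bbar_le_intCl M n bbar hbasis)
    (chainA_intCl_le_Bbar M n hdeg BD hL hP)

/-- `#pts(B̄, c̄)` is the fibre cardinality of the reduced curve, once `B̄` is normal. -/
theorem chainA_numPtsBbar_eq (M : RedModel K k F Fk) (heq : M.Bbar = intCl k M.xbar) (cbar : k) :
    numPtsBbar M cbar = fibreCard k M.xbar cbar := by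
  unfold numPtsBbar fibreCard
  exact chain_card_eq heq M.xbar M.xbar_mem_Bbar cbar

/-- **The discriminant chain for weak branch data** (finite part): (L) + (P) (+ ALG-1) imply
(NORM), (FIB) and (FIB=). -/
theorem discChainA_of_steps [IsAlgClosed k] (M : RedModel K k F Fk) (n : ℕ)
    (hdeg : DegData M n) (BD : BranchDataA M n)
    (hL : LiftStepA M n BD) (hP : PointsStep M) :
    NormalReduction M ∧ FibreBound M ∧ FibreEq M n BD := by
  have heq := chainA_Bbar_eq_intCl M n hdeg BD hL hP
  refine ⟨fun y hy => ?_, fun c hc => ?_, fun c hc hcS => ?_⟩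
  · have : y ∈ M.Bbar := heq ▸ hy
    exact this
  · rw [← chainA_numPtsBbar_eq M heq]
    exact hP c hc
  · rw [← chainA_numPtsBbar_eq M heq]
    exact (chainA_local_at M n hdeg BD hL hP c hc hcS).1

end

end Fermat.Agent.S27GR
end MergeWrap_S27_GR_ChainA
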